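import Fermat.Agent.MU.S14.SI.ThetaCount

section MergeWrap_F4_Kum_Defs -- from F4/Kum/Defs.lean

/-!
# F4 / GLOB / KUM: the existence theorem modulo `p` at finite level — definitions and interfaces

Owner of the seat: helper95.  Setting (as in `S14/SI/Defs.lean`): `F` a number field, `p` an odd
prime, `ζ : F` a primitive `p`-th root of unity, `S` a finite set of primes of `F` containing all
primes above `p`.  No completions, no ideles.

* `powSymb p v x : Fˣ` — the `p`-th power residue symbol `(x / v)_p ∈ μ_p(F)` of a `v`-unit `x`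
  at a prime `v ∤ p`: the `p`-th root of unity `ω` with `x ^ ((N v - 1) / p) ≡ ω mod v`
  (junk value `1` if there is none).
* `thetaOrd v a : ℤ` (from `S14/SI/ThetaCount.lean`) is **minus** the order of `a` at `v`:
  `v.valuation F a = exp (thetaOrd v a)`.
* `kumPairing p S x a = ∏_{v ∉ S} (x / v)_p ^ thetaOrd v a` — the value at the Kummer generator `x`
  of (the inverse of) the Artin symbol of the prime-to-`S` part of the principal ideal `(a)`.

Interfaces (`Prop`s; the owner of a piece proves `theorem xxx : Xxx` in his own file):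

* `SymbLaws` (K1, elementary): multiplicativity of `powSymb` and Euler's criterion.
* `GenAvoid` (K2, elementary): generating sets of the class group avoiding a finite set of primes.
* `Rec1` (GLOB reciprocity, helper14's layer): the Artin symbol of `F(x^{1/p})/F`
  (`x` of order divisible by `p` outside `T ⊇ {v ∣ p}`) kills the principal ideals `(a)`,
  `a` a local `p`-th power at all primes of `T`.
* `KumEx` (the deliverable): an ideal prime to `S` which is orthogonal to all Kummer generators
  unramified outside `S` is, modulo `p`-th powers of ideals, the prime-to-`S` part of `(a)` with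
  `a` a local `p`-th power at all primes of `S`.  This is the injectivity of
  `C_S(F)/p → Hom(G_{F,S}, 𝔽_p)^*` (existence theorem for exponent `p`) when `μ_p ⊆ F`.
-/

set_option autoImplicit false

open NumberField IsDedekindDomain

namespace Fermat.Agent.F4Kum

open Fermat.Agent.S14SI

variable {F : Type*} [Field F] [NumberField F]

/-- The exponent `(N v - 1) / p` of Euler's criterion. -/
noncomputable def symbExp (p : ℕ) (v : HeightOneSpectrum (𝓞 F)) : ℕ :=
  (Ideal.absNorm v.asIdeal - 1) / p

open Classical in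
/-- The `p`-th power residue symbol `(x / v)_p`, as an element of `Fˣ` (a `p`-th root of unity):
the `ω` with `ω ^ p = 1` and `x ^ ((N v - 1) / p) ≡ ω mod v`; junk value `1` if there is none. -/
noncomputable def powSymb (p : ℕ) (v : HeightOneSpectrum (𝓞 F)) (x : F) : Fˣ :=
  if h : ∃ ω : Fˣ, ω ^ p = 1 ∧ v.valuation F (x ^ symbExp p v - (ω : F)) < 1 then h.choose else 1

lemma powSymb_pow (p : ℕ) (v : HeightOneSpectrum (𝓞 F)) (x : F) : powSymb p v x ^ p = 1 := by
  unfold powSymb
  split_ifs with h
  · exact h.choose_spec.1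
  · exact one_pow p

open Classical in
/-- `∏_{v ∉ S} (x / v)_p ^ thetaOrd v a`. -/
noncomputable def kumPairing (p : ℕ) (S : Finset (HeightOneSpectrum (𝓞 F))) (x : F) (a : Fˣ) :
    Fˣ :=
  ∏ᶠ v : HeightOneSpectrum (𝓞 F), if v ∈ S then 1 else powSymb p v x ^ thetaOrd v a

/-! ### K1: laws of the power residue symbol -/

/-- **K1a**: the symbol is multiplicative on `v`-units (`v ∤ p`). -/
def SymbMul : Prop :=
  ∀ (p : ℕ) (F : Type) [Field F] [NumberField F] (ζ x y : F) (v : HeightOneSpectrum (𝓞 F)),
    p.Prime → IsPrimitiveRoot ζ p → (p : 𝓞 F) ∉ v.asIdeal →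
    v.valuation F x = 1 → v.valuation F y = 1 →
    powSymb p v (x * y) = powSymb p v x * powSymb p v y

/-- **K1b (Euler's criterion)**: the symbol of a `v`-unit is trivial iff the unit is a `p`-th power
modulo `v`. -/
def SymbEuler : Prop :=
  ∀ (p : ℕ) (F : Type) [Field F] [NumberField F] (ζ x : F) (v : HeightOneSpectrum (𝓞 F)),
    p.Prime → IsPrimitiveRoot ζ p → (p : 𝓞 F) ∉ v.asIdeal → v.valuation F x = 1 →
    (powSymb p v x = 1 ↔ IsPowMod F v p x)

/-! ### K2: generating sets avoiding a finite set -/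

/-- **K2**: for every finite set `B` of primes there is a finite set of primes disjoint from `B`
whose classes generate the class group. -/
def GenAvoid : Prop :=
  ∀ (F : Type) [Field F] [NumberField F] (B : Finset (HeightOneSpectrum (𝓞 F))),
    ∃ G : Finset (HeightOneSpectrum (𝓞 F)), Disjoint B G ∧ GeneratesClassGroup F G

/-! ### The reciprocity input -/

/-- **Rec1 (reciprocity law, ray form)**: let `T ⊇ {v ∣ p}`, `x ∈ Fˣ` with `p ∣ ord_v x` for all
`v ∉ T` (so `F(x^{1/p})/F` is unramified outside `T`) and `a ∈ Fˣ` a local `p`-th power at every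
`v ∈ T`, such that `x` is a unit at the primes `v ∉ T` with `p ∤ ord_v a`.  Then
`∏_{v ∉ T} (x / v)_p ^ ord_v a = 1`. -/
def Rec1 : Prop :=
  ∀ (p : ℕ) (F : Type) [Field F] [NumberField F] (ζ : F)
    (T : Finset (HeightOneSpectrum (𝓞 F))) (x a : Fˣ),
    p.Prime → p ≠ 2 → IsPrimitiveRoot ζ p → ContainsPrimesAbove F p T →
    (∀ v ∉ T, (p : ℤ) ∣ thetaOrd v x) →
    (∀ v ∉ T, ¬ (p : ℤ) ∣ thetaOrd v a → thetaOrd v x = 0) →
    (∀ v ∈ T, IsLocalPow F v p ζ (a : F)) →
    kumPairing p T (x : F) a = 1

/-! ### The deliverable -/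

/-- **KumEx (existence theorem for exponent `p`, Kummer case, finite level)**.
`c` is an ideal prime to `S`, given by its exponents on a finite set `R` of primes disjoint from
`S`.  If `∏_{v ∈ R} (x / v)_p ^ c v = 1` for all `x ∈ Fˣ` with `p ∣ ord_v x` for `v ∉ S` which are
units on `R`, then there is `a ∈ Fˣ`, a local `p`-th power at every prime of `S`, with
`thetaOrd v a ≡ c v mod p` for `v ∈ R` and `thetaOrd v a ≡ 0 mod p` for `v ∉ S ∪ R`. -/
def KumEx : Prop :=
  ∀ (p : ℕ) (F : Type) [Field F] [NumberField F] (ζ : F)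
    (S R : Finset (HeightOneSpectrum (𝓞 F))) (c : HeightOneSpectrum (𝓞 F) → ℤ),
    p.Prime → p ≠ 2 → IsPrimitiveRoot ζ p → ContainsPrimesAbove F p S → Disjoint S R →
    (∀ x : Fˣ, (∀ v ∉ S, (p : ℤ) ∣ thetaOrd v x) → (∀ v ∈ R, thetaOrd v x = 0) →
      ∏ v ∈ R, powSymb p v (x : F) ^ c v = 1) →
    ∃ a : Fˣ, (∀ v ∈ S, IsLocalPow F v p ζ (a : F)) ∧
      (∀ v ∈ R, (p : ℤ) ∣ thetaOrd v a - c v) ∧
      ∀ v ∉ S, v ∉ R → (p : ℤ) ∣ thetaOrd v a

end Fermat.Agent.F4Kum
end MergeWrap_F4_Kum_Defs
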