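import Fermat.Agent.MU.F4.Kum.Defs

section MergeWrap_F4_Kum_Interface2 -- from F4/Kum/Interface2.lean

/-!
# F4 / GLOB / KUM: interfaces of the pieces of the proof of `KumEx` from `Rec1`

* `ApproxNonRes` (K6), `LocalPowIsPowMod` (K7): elementary (CRT; units at `v ∤ p`).
* `LevelOrth` (K4): the right kernel of the pairing at a level `S` generating the class group.
* `DescentOrth` (K5): the right kernel of the pairing restricted to the `S`-units of order
  divisible by `p` on `D ⊆ S` (removal of the primes of `D` from the level).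
* `KumEx` (K9) follows from `DescentOrth` and `GenAvoid`.
-/

set_option autoImplicit false

open NumberField IsDedekindDomain

namespace Fermat.Agent.F4Kum

open Fermat.Agent.S14SI

/-- **K6**: there is `b ∈ Fˣ` which is a local `p`-th power at all primes of a finite set `T`,
and a unit but not a `p`-th power residue at a given prime `v₀ ∉ T`, `v₀ ∤ p`. -/
def ApproxNonRes : Prop :=
  ∀ (p : ℕ) (F : Type) [Field F] [NumberField F] (ζ : F)
    (T : Finset (HeightOneSpectrum (𝓞 F))) (v₀ : HeightOneSpectrum (𝓞 F)),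
    p.Prime → IsPrimitiveRoot ζ p → v₀ ∉ T → (p : 𝓞 F) ∉ v₀.asIdeal →
    ∃ b : Fˣ, (∀ v ∈ T, IsLocalPow F v p ζ (b : F)) ∧ v₀.valuation F (b : F) = 1 ∧
      ¬ IsPowMod F v₀ p (b : F)

/-- **K7**: at a prime `v ∤ p`, a unit which is a local `p`-th power is a `p`-th power residue
(converse of `S14SI.IsPowMod.isLocalPow`). -/
def LocalPowIsPowMod : Prop :=
  ∀ (p : ℕ) (F : Type) [Field F] [NumberField F] (ζ u : F) (v : HeightOneSpectrum (𝓞 F)),
    p.Prime → IsPrimitiveRoot ζ p → (p : 𝓞 F) ∉ v.asIdeal → v.valuation F u = 1 →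
    IsLocalPow F v p ζ u → IsPowMod F v p u

/-- **K4 (level `S`, `Cl_S = 1`)**: if `S ⊇ {v ∣ p}` generates the class group and `a ∈ Fˣ` is
orthogonal to all `S`-units, then `a = e * u` with `e` an `S`-unit and `u` a local `p`-th power at
all primes of `S`. -/
def LevelOrth : Prop :=
  ∀ (p : ℕ) (F : Type) [Field F] [NumberField F] (ζ : F)
    (S : Finset (HeightOneSpectrum (𝓞 F))) (a : Fˣ),
    p.Prime → p ≠ 2 → IsPrimitiveRoot ζ p → ContainsPrimesAbove F p S →
    GeneratesClassGroup F S →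
    (∀ ε : Fˣ, ε ∈ sUnits F (S : Set (HeightOneSpectrum (𝓞 F))) →
      kumPairing p S (ε : F) a = 1) →
    ∃ e u : Fˣ, e ∈ sUnits F (S : Set (HeightOneSpectrum (𝓞 F))) ∧
      (∀ v ∈ S, IsLocalPow F v p ζ (u : F)) ∧ a = e * u

/-- **K5 (descent)**: `S ⊇ {v ∣ p}` generates the class group, `D ⊆ S` consists of primes
`v₀ ∤ p` such that `S \ {v₀}` still generates the class group.  If `a ∈ Fˣ` is orthogonal to all
`S`-units of order divisible by `p` at the primes of `D`, then `a = e * w` with `e` an `S`-unit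
and `w` a local `p`-th power at the primes of `S \ D`, of order divisible by `p` on `D`. -/
def DescentOrth : Prop :=
  ∀ (p : ℕ) (F : Type) [Field F] [NumberField F] (ζ : F)
    (S D : Finset (HeightOneSpectrum (𝓞 F))) (a : Fˣ),
    p.Prime → p ≠ 2 → IsPrimitiveRoot ζ p → ContainsPrimesAbove F p S →
    GeneratesClassGroup F S → D ⊆ S → (∀ v ∈ D, (p : 𝓞 F) ∉ v.asIdeal) →
    (∀ v₀ ∈ D, ∃ G : Finset (HeightOneSpectrum (𝓞 F)), G ⊆ S ∧ v₀ ∉ G ∧
      GeneratesClassGroup F G) →
    (∀ ε : Fˣ, ε ∈ sUnits F (S : Set (HeightOneSpectrum (𝓞 F))) →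
      (∀ v ∈ D, (p : ℤ) ∣ thetaOrd v ε) → kumPairing p S (ε : F) a = 1) →
    ∃ e w : Fˣ, e ∈ sUnits F (S : Set (HeightOneSpectrum (𝓞 F))) ∧
      (∀ v ∈ S, v ∉ D → IsLocalPow F v p ζ (w : F)) ∧
      (∀ v ∈ D, (p : ℤ) ∣ thetaOrd v w) ∧ a = e * w

end Fermat.Agent.F4Kum
end MergeWrap_F4_Kum_Interface2
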