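import Mathlib
import Fermat.Agent.MU.S17.W.Final
import Fermat.Agent.MU.S14.SI.Basic
import Fermat.Agent.MU.S14.FirstIneq.FirstIneqProof
import Fermat.Agent.MU.S14.SI.KummerSplits
import Fermat.Agent.MU.S14.SI.KummerNonSplit
import Fermat.Agent.MU.S14.SI.LocalCyclic
import Fermat.Agent.MU.S14.SI.ThetaCount
import Fermat.Agent.MU.S14.SI.TameHerbrand
import Fermat.Agent.MU.S14.SI.TameH1
import Fermat.Agent.MU.S14.SI.TameNonNorm
import Fermat.Agent.MU.S14.SI.Tame
import Fermat.Agent.MU.S14.SI.LocalNormProper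
import Fermat.Agent.MU.F4.Kum.Interface2
import Fermat.Agent.MU.F4.Kum.Pairing
import Fermat.Agent.MU.F4.Kum.Symbol

section MergeWrap_F4_Kum_Dual -- from F4/Kum/Dual.lean

/-!
# F4 / GLOB / KUM (K3): an abstract duality lemma

`β : A × B → μ_p` bimultiplicative, trivial on `P × B` and on `A × H`, with left kernel exactly `P`,
and `[B : H] ≤ [A : P] < ∞`, `B ^ p ⊆ H`.  Then the right kernel is exactly `H`.
-/

set_option autoImplicit false

namespace Fermat.Agent.F4Kum

open CommGroup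

theorem mem_of_orthogonal {A B M : Type*} [CommGroup A] [CommGroup B] [CommRing M] [IsDomain M]
    {p : ℕ} (hp : p.Prime) {ω : M} (hω : IsPrimitiveRoot ω p)
    (P : Subgroup A) (H : Subgroup B) (β : A →* B →* Mˣ)
    (hH : H.index ≠ 0) (hle : H.index ≤ P.index)
    (hBp : ∀ b : B, b ^ p ∈ H)
    (hβH : ∀ x, ∀ h ∈ H, β x h = 1)
    (hβP : ∀ x ∈ P, ∀ b, β x b = 1)
    (hleft : ∀ x, (∀ b, β x b = 1) → x ∈ P)
    (b : B) (hb : ∀ x, β x b = 1) : b ∈ H := by
  classical
  have : NeZero p := ⟨hp.ne_zero⟩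
  have : H.FiniteIndex := ⟨hH⟩
  have : Finite (B ⧸ H) := Subgroup.finite_quotient_of_finiteIndex
  -- enough roots of unity
  have hM : HasEnoughRootsOfUnity M p := ⟨⟨ω, hω⟩, inferInstance⟩
  have hexp : Monoid.exponent (B ⧸ H) ∣ p := by
    apply Monoid.exponent_dvd_of_forall_pow_eq_one
    intro g
    obtain ⟨b', rfl⟩ := QuotientGroup.mk_surjective g
    rw [← QuotientGroup.mk_pow, QuotientGroup.eq_one_iff]
    exact hBp b'
  have hM' : HasEnoughRootsOfUnity M (Monoid.exponent (B ⧸ H)) :=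
    HasEnoughRootsOfUnity.of_dvd M hexp
  -- the induced map `A → Hom(B/H, Mˣ)`
  let Φ : A →* ((B ⧸ H) →* Mˣ) :=
    { toFun := fun x => QuotientGroup.lift H (β x) (fun h hh => hβH x h hh)
      map_one' := by
        apply QuotientGroup.monoidHom_ext
        refine MonoidHom.ext fun g => ?_
        show (β 1) g = 1
        rw [map_one]
        rfl
      map_mul' := fun x y => by
        apply QuotientGroup.monoidHom_ext
        refine MonoidHom.ext fun g => ?_
        show (β (x * y)) g = (β x) g * (β y) g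
        rw [map_mul]
        rfl }
  have hΦ : ∀ (x : A) (b' : B), Φ x (b' : B ⧸ H) = β x b' := fun x b' => rfl
  have hker : Φ.ker = P := by
    ext x
    rw [MonoidHom.mem_ker]
    constructor
    · intro hx
      apply hleft
      intro b'
      rw [← hΦ x b', hx]
      rfl
    · intro hx
      apply QuotientGroup.monoidHom_ext
      refine MonoidHom.ext fun g => ?_
      show (β x) g = 1
      exact hβP x hx g
  have hcardHom : Nat.card ((B ⧸ H) →* Mˣ) = Nat.card (B ⧸ H) :=
    card_monoidHom_of_hasEnoughRootsOfUnity (B ⧸ H) M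
  have hcard0 : Nat.card (B ⧸ H) ≠ 0 := Nat.card_pos.ne'
  have : Finite ((B ⧸ H) →* Mˣ) := Nat.finite_of_card_ne_zero (hcardHom ▸ hcard0)
  have hrange : Nat.card Φ.range = P.index := by
    rw [← hker, Subgroup.index_ker]
  have htop : Φ.range = ⊤ := by
    apply Subgroup.eq_top_of_le_card
    rw [hrange, hcardHom, ← Subgroup.index_eq_card]
    exact hle
  by_contra hbH
  have hne : ((b : B ⧸ H)) ≠ 1 := by
    rwa [Ne, QuotientGroup.eq_one_iff]
  obtain ⟨φ, hφ⟩ := exists_apply_ne_one_of_hasEnoughRootsOfUnity (B ⧸ H) M hne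
  have hmem : φ ∈ Φ.range := by rw [htop]; trivial
  obtain ⟨x, rfl⟩ := hmem
  exact hφ (by rw [hΦ]; exact hb x)

end Fermat.Agent.F4Kum
end MergeWrap_F4_Kum_Dual

section MergeWrap_S14_SI_Assembly -- from S14/SI/Assembly.lean

/-!
# S14 / H2 Route I: `SecondIneqKummer` from the main theorem
-/

set_option autoImplicit false

open NumberField IsDedekindDomain
open scoped nonZeroDivisors

namespace Fermat.Agent.S14SI

/-- `p`-th powers of ideal classes are norm classes. -/
lemma pow_mem_normClasses (E M : Type) [Field E] [NumberField E] [Field M] [NumberField M]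
    [Algebra E M] (c : ClassGroup (𝓞 E)) :
    c ^ Module.finrank E M ∈ Fermat.Agent.S14.normClasses E M := by
  obtain ⟨J, rfl⟩ := ClassGroup.mk0_surjective c
  have hinj : Function.Injective (algebraMap (𝓞 E) (𝓞 M)) :=
    FaithfulSMul.algebraMap_injective (𝓞 E) (𝓞 M)
  have hmap : (J : Ideal (𝓞 E)).map (algebraMap (𝓞 E) (𝓞 M)) ∈ (Ideal (𝓞 M))⁰ := by
    refine mem_nonZeroDivisors_of_ne_zero ?_
    intro h
    have := (Ideal.map_eq_bot_iff_of_injective hinj).mp h
    exact nonZeroDivisors.coe_ne_zero J this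
  refine ⟨⟨_, hmap⟩, J ^ Module.finrank E M, ?_, by rw [map_pow]⟩
  rw [Ideal.relNorm_algebraMap, IsFractionRing.finrank_eq (𝓞 E) E (𝓞 M) M]
  rfl

/-- **Assembly**: the Kummer case of the second inequality, from the main theorem of Route I. -/
theorem secondIneqKummer_of (h1 : MainThm) (h2 : KummerSplits) (h3 : SplitNormClass) :
    Fermat.Agent.S14.SecondIneqKummer := by
  intro p E M _ _ _ _ _ _ ζ N hp hp2 hζ hdeg _ hN
  have : Fact p.Prime := ⟨hp⟩
  -- Kummer generator
  have hcard : Nat.card (M ≃ₐ[E] M) = p := by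
    rw [IsGalois.card_aut_eq_finrank, hdeg]
  have : IsCyclic (M ≃ₐ[E] M) := isCyclic_of_prime_card hcard
  have hK : (primitiveRoots (Module.finrank E M) E).Nonempty :=
    ⟨ζ, by rw [hdeg]; exact (mem_primitiveRoots hp.pos).mpr hζ⟩
  obtain ⟨α, ⟨a, ha⟩, hα⟩ := exists_root_adjoin_eq_top_of_isCyclic E M hK
  rw [hdeg] at ha
  -- `α ∉ E`
  have hαE : ∀ b : E, algebraMap E M b ≠ α := by
    intro b hb
    have hbot : IntermediateField.adjoin E {α} = ⊥ := by
      rw [IntermediateField.adjoin_simple_eq_bot_iff]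
      exact IntermediateField.mem_bot.mpr ⟨b, hb⟩
    rw [hbot] at hα
    have h1 : Module.finrank E (⊥ : IntermediateField E M) = 1 := IntermediateField.finrank_bot
    rw [hα, IntermediateField.finrank_top', hdeg] at h1
    exact hp.one_lt.ne' h1
  have ha0 : a ≠ 0 := by
    rintro rfl
    rw [map_zero] at ha
    have hα0 : α = 0 := pow_eq_zero_iff hp.ne_zero |>.mp ha.symm
    exact hαE 0 (by rw [map_zero, hα0])
  -- `a` is not a `p`-th power
  have hnp : ¬ ∃ b : E, b ^ p = a := by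
    rintro ⟨b, hb⟩
    have hb0 : b ≠ 0 := by
      rintro rfl
      rw [zero_pow hp.ne_zero] at hb
      exact ha0 hb.symm
    have hbM : algebraMap E M b ≠ 0 := by
      simpa using hb0
    have hζM : IsPrimitiveRoot (algebraMap E M ζ) p :=
      hζ.map_of_injective (algebraMap E M).injective
    have hpow : (α / algebraMap E M b) ^ p = 1 := by
      rw [div_pow, ← ha, ← map_pow, hb, div_self]
      rw [← hb, map_pow]; exact pow_ne_zero _ hbM
    obtain ⟨i, -, hi⟩ := hζM.eq_pow_of_pow_eq_one hpow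
    refine hαE (ζ ^ i * b) ?_
    rw [map_mul, map_pow, hi, div_mul_cancel₀ _ hbM]
  obtain ⟨T, hT, hidx⟩ := h1 p E ζ a hp hp2 hζ ha0 hnp
  -- the subgroup generated by `T` and the `p`-th powers is contained in `N`
  have hle : classSubgroup E p T ≤ N := by
    refine (Subgroup.closure_le N).mpr ?_
    rintro c (⟨v, hv, rfl⟩ | ⟨c, rfl⟩)
    · obtain ⟨hvp, hpow⟩ := hT v hv
      apply hN
      apply h3 E M v
      exact h2 p E M ζ a α v hp hζ hdeg ha.symm hαE (hpow.isLocalPow hζ hp.one_lt hvp)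
    · apply hN
      have := pow_mem_normClasses E M c
      rwa [hdeg] at this
  have hdvd := Subgroup.index_dvd_of_le hle
  have hne : (classSubgroup E p T).index ≠ 0 := Subgroup.index_ne_zero_of_finite
  exact (Nat.le_of_dvd (Nat.pos_of_ne_zero hne) hdvd).trans hidx

end Fermat.Agent.S14SI
end MergeWrap_S14_SI_Assembly

section MergeWrap_S14_SI_MainThm -- from S14/SI/MainThm.lean

/-!
# S14 / H2 Route I: the main theorem from its work packages
-/

set_option autoImplicit false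

open NumberField IsDedekindDomain

namespace Fermat.Agent.S14SI

/-- The main theorem of Route I, from the work packages. -/
theorem mainThm_of (h1 : ExistsGoodS) (h2 : ChooseT) (h3 : KeyLemma) (h4 : ThetaCount) :
    MainThm := by
  intro p F _ _ ζ a hp hp2 hζ ha hnp
  classical
  -- the bad primes
  let B : Finset (HeightOneSpectrum (𝓞 F)) :=
    (finite_setOf_natCast_mem F hp.ne_zero).toFinset ∪
      (finite_setOf_valuation_ne_one' F ha).toFinset
  obtain ⟨S, hBS, hgen⟩ := h1 F B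
  have hSp : ContainsPrimesAbove F p S := by
    intro v hv
    exact hBS (Finset.mem_union_left _ (by simpa using hv))
  have haS : Units.mk0 a ha ∈ sUnits F S := by
    rw [mem_sUnits]
    intro v hv
    by_contra hne
    exact hv (by
      have : v ∈ B := Finset.mem_union_right _ (by simpa using hne)
      exact_mod_cast hBS this)
  obtain ⟨T, hdisj, hcard, hpow, hsurj⟩ := h2 p F ζ (Units.mk0 a ha) S hp hp2 hζ hSp haS
    (by simpa using hnp)
  refine ⟨T, fun v hv => ⟨fun hpv => ?_, by simpa using hpow v hv⟩, ?_⟩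
  · exact (Finset.disjoint_left.mp hdisj (hSp v hpv)) hv
  · exact h4 p F ζ S T hp hp2 hζ hgen hdisj hcard
      (fun x hx hloc => h3 p F ζ x S T hp hp2 hζ hSp hgen hdisj hsurj hx hloc)

end Fermat.Agent.S14SI
end MergeWrap_S14_SI_MainThm

section MergeWrap_S14_SI_ChooseT -- from S14/SI/ChooseT.lean

/-!
# S14 / H2 Route I, WP5: the choice of the auxiliary set `T` (helper48)

`theorem chooseT : SUnitRank → KummerNonSplit → LocalCyclic → ChooseT`.

Induction on `j ≤ n - 1`, `n = r₂ + |S|`: a set `T_j` of `j` primes outside `S` at which `a` is a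
`p`-th power residue and such that `E_S → ∏_{v ∈ T_j} k_v^× / p` is onto.  The subgroup
`K(T_j) ∩ E_S` of `S`-units which are residues at `T_j` has index `≤ p^j < p^(n-1) ≤ [E_S : ⟨a⟩E_S^p]`,
so there is `u ∈ K(T_j) ∩ E_S` outside `⟨a⟩ E_S^p`; `KummerNonSplit` gives a new prime `v` at which
`a` is a residue and `u` is not, and `LocalCyclic` gives surjectivity for `T_j ∪ {v}`.

Also: `IsPowMod` is stable under products and inverses (`powModSubgroup`).
-/

set_option autoImplicit false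

open NumberField IsDedekindDomain

namespace Fermat.Agent.S14SI

variable {F : Type} [Field F] [NumberField F]

/-! ### `IsPowMod` is a subgroup condition -/

lemma chooseT_valuation_coe_eq_one {v : HeightOneSpectrum (𝓞 F)} {z : 𝓞 F} (hz : z ∉ v.asIdeal) :
    v.valuation F (z : F) = 1 := by
  rw [HeightOneSpectrum.valuation_of_algebraMap]
  exact (HeightOneSpectrum.intValuation_eq_one_iff).mpr hz

lemma chooseT_isPowMod_one (v : HeightOneSpectrum (𝓞 F)) (p : ℕ) : IsPowMod F v p 1 := by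
  refine ⟨1, ?_, ?_⟩
  · intro h
    exact v.isPrime.ne_top ((Ideal.eq_top_iff_one _).mpr h)
  · simp

lemma chooseT_isPowMod_mul {v : HeightOneSpectrum (𝓞 F)} {p : ℕ} {a b : F}
    (ha : IsPowMod F v p a) (hb : IsPowMod F v p b) : IsPowMod F v p (a * b) := by
  have hb1 := hb.valuation_eq_one
  obtain ⟨z, hz, h1⟩ := ha
  obtain ⟨w, hw, h2⟩ := hb
  refine ⟨z * w, fun h => (v.isPrime.mem_or_mem h).elim hz hw, ?_⟩
  have e : a * b - ((z * w : 𝓞 F) : F) ^ p = (a - (z : F) ^ p) * b + (z : F) ^ p * (b - (w : F) ^ p) := by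
    push_cast; ring
  rw [e]
  refine Valuation.map_add_lt _ ?_ ?_
  · rw [map_mul, hb1, mul_one]; exact h1
  · rw [map_mul, map_pow, chooseT_valuation_coe_eq_one hz, one_pow, one_mul]; exact h2

lemma chooseT_isPowMod_inv {v : HeightOneSpectrum (𝓞 F)} {p : ℕ} {a : F}
    (ha : IsPowMod F v p a) : IsPowMod F v p a⁻¹ := by
  have ha1 := ha.valuation_eq_one
  have ha0 : a ≠ 0 := by
    intro h0; rw [h0] at ha1; simp at ha1
  obtain ⟨z, hz, h1⟩ := ha
  obtain ⟨w, i, hi, hwi⟩ := v.isMaximal.exists_inv hz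
  have hw : w ∉ v.asIdeal := by
    intro hw
    have : (1 : 𝓞 F) ∈ v.asIdeal := by
      rw [← hwi]
      exact v.asIdeal.add_mem (v.asIdeal.mul_mem_right _ hw) hi
    exact v.isPrime.ne_top ((Ideal.eq_top_iff_one _).mpr this)
  refine ⟨w, hw, ?_⟩
  -- `(w z)^p - 1 ∈ v`
  have hmem : (w * z) ^ p - 1 ∈ v.asIdeal := by
    have h1' : w * z - 1 ∈ v.asIdeal := by
      have : w * z - 1 = -i := by rw [← hwi]; ring
      rw [this]; exact v.asIdeal.neg_mem hi
    have hdvd : w * z - 1 ∣ (w * z) ^ p - 1 ^ p := sub_dvd_pow_sub_pow _ _ p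
    rw [one_pow] at hdvd
    exact v.asIdeal.mem_of_dvd hdvd h1'
  have hval : v.valuation F (((w * z) ^ p - 1 : 𝓞 F) : F) < 1 :=
    (v.valuation_lt_one_iff_mem _).mpr hmem
  have e : a⁻¹ - (w : F) ^ p =
      a⁻¹ * (-((((w * z) ^ p - 1 : 𝓞 F) : F)) - (w : F) ^ p * (a - (z : F) ^ p)) := by
    push_cast
    field_simp
    ring
  rw [e, map_mul, map_inv₀, ha1, inv_one, one_mul]
  refine Valuation.map_sub_lt _ ?_ ?_
  · rw [Valuation.map_neg]; exact hval
  · rw [map_mul, map_pow, chooseT_valuation_coe_eq_one hw, one_pow, one_mul]; exact h1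

variable (F) in
/-- The subgroup of `Fˣ` of `p`-th power residues at `v`. -/
def powModSubgroup (v : HeightOneSpectrum (𝓞 F)) (p : ℕ) : Subgroup Fˣ where
  carrier := {u | IsPowMod F v p (u : F)}
  one_mem' := by simpa using chooseT_isPowMod_one v p
  mul_mem' := fun ha hb => by simpa using chooseT_isPowMod_mul ha hb
  inv_mem' := fun ha => by simpa using chooseT_isPowMod_inv ha

lemma mem_powModSubgroup {v : HeightOneSpectrum (𝓞 F)} {p : ℕ} {u : Fˣ} :
    u ∈ powModSubgroup F v p ↔ IsPowMod F v p (u : F) := Iff.rfl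

/-! ### A group-theoretic index bound -/

/-- If every element of `L` can be moved into `H` by one of the `p` elements `u₀ ^ i`, `i < p`,
of `L`, then `H` has relative index at most `p` (and nonzero) in `L`. -/
lemma chooseT_relIndex_le {G : Type*} [CommGroup G] (H L : Subgroup G) {p : ℕ} {u₀ : G}
    (hu₀ : u₀ ∈ L) (h : ∀ x ∈ L, ∃ i : ℕ, i < p ∧ x * u₀ ^ i ∈ H) :
    H.relIndex L ≠ 0 ∧ H.relIndex L ≤ p := by
  let f : Fin p → L ⧸ H.subgroupOf L := fun i =>
    QuotientGroup.mk (⟨u₀ ^ (i : ℕ), L.pow_mem hu₀ _⟩⁻¹ : L)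
  have hf : Function.Surjective f := by
    intro q
    obtain ⟨x, rfl⟩ := QuotientGroup.mk_surjective q
    obtain ⟨i, hi, hx⟩ := h x x.2
    refine ⟨⟨i, hi⟩, ?_⟩
    rw [QuotientGroup.eq]
    rw [Subgroup.mem_subgroupOf]
    simp only [inv_inv, Subgroup.coe_mul]
    rw [mul_comm]
    exact hx
  have hfin : Finite (L ⧸ H.subgroupOf L) := Finite.of_surjective f hf
  have hcard : Nat.card (L ⧸ H.subgroupOf L) ≤ p := by
    have := Nat.card_le_card_of_surjective f hf
    simpa using this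
  refine ⟨?_, hcard⟩
  show (H.subgroupOf L).index ≠ 0
  rw [Subgroup.index]
  exact Nat.card_pos.ne'


/-! ### The construction of `T` -/

section Construction

variable {p : ℕ} {S : Finset (HeightOneSpectrum (𝓞 F))}

/-- The `S`-units which are `p`-th power residues at all primes of `T`. -/
def chooseT_K (F : Type) [Field F] [NumberField F] (p : ℕ)
    (T : Finset (HeightOneSpectrum (𝓞 F))) : Subgroup Fˣ where
  carrier := {u | ∀ v ∈ T, IsPowMod F v p (u : F)}
  one_mem' := fun v _ => by simpa using chooseT_isPowMod_one v p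
  mul_mem' := fun ha hb v hv => by simpa using chooseT_isPowMod_mul (ha v hv) (hb v hv)
  inv_mem' := fun ha v hv => by simpa using chooseT_isPowMod_inv (ha v hv)

lemma chooseT_mem_K {T : Finset (HeightOneSpectrum (𝓞 F))} {u : Fˣ} :
    u ∈ chooseT_K F p T ↔ ∀ v ∈ T, IsPowMod F v p (u : F) := Iff.rfl

lemma chooseT_K_insert [DecidableEq (HeightOneSpectrum (𝓞 F))]
    (T : Finset (HeightOneSpectrum (𝓞 F))) (v : HeightOneSpectrum (𝓞 F)) :
    chooseT_K F p (insert v T) = powModSubgroup F v p ⊓ chooseT_K F p T := by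
  ext u
  simp only [chooseT_mem_K, Subgroup.mem_inf, mem_powModSubgroup, Finset.mem_insert,
    forall_eq_or_imp]

/-- `k_v^× / p` has order at most `p`: the index of the residues in the `S`-units. -/
lemma chooseT_relIndex_powMod (hLC : LocalCyclic) (hp : p.Prime) {ζ : F}
    (hζ : IsPrimitiveRoot ζ p) (hS : ContainsPrimesAbove F p S) {v : HeightOneSpectrum (𝓞 F)}
    (hv : v ∉ S) :
    (powModSubgroup F v p).relIndex (sUnits F (S : Set (HeightOneSpectrum (𝓞 F)))) ≠ 0 ∧
      (powModSubgroup F v p).relIndex (sUnits F (S : Set (HeightOneSpectrum (𝓞 F)))) ≤ p := by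
  by_cases hle : sUnits F (S : Set (HeightOneSpectrum (𝓞 F))) ≤ powModSubgroup F v p
  · rw [Subgroup.relIndex_eq_one.mpr hle]
    exact ⟨one_ne_zero, hp.one_lt.le⟩
  · obtain ⟨u₀, hu₀, hu₀'⟩ := SetLike.not_le_iff_exists.mp hle
    have hvp : (p : 𝓞 F) ∉ v.asIdeal := fun h => hv (hS v h)
    have hvS : v ∉ (S : Set (HeightOneSpectrum (𝓞 F))) := by simpa using hv
    refine chooseT_relIndex_le _ _ hu₀ fun x hx => ?_
    obtain ⟨i, hi, h⟩ := hLC p F ζ (x : F) (u₀ : F) v hp hζ hvp
      ((mem_sUnits _ x).mp hx v hvS) ((mem_sUnits _ u₀).mp hu₀ v hvS) hu₀'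
    refine ⟨i, hi, ?_⟩
    rw [mem_powModSubgroup]
    simpa using h

lemma chooseT_relIndex_K (hLC : LocalCyclic) (hp : p.Prime) {ζ : F}
    (hζ : IsPrimitiveRoot ζ p) (hS : ContainsPrimesAbove F p S)
    (T : Finset (HeightOneSpectrum (𝓞 F))) (hT : Disjoint S T) :
    (chooseT_K F p T).relIndex (sUnits F (S : Set (HeightOneSpectrum (𝓞 F)))) ≠ 0 ∧
      (chooseT_K F p T).relIndex (sUnits F (S : Set (HeightOneSpectrum (𝓞 F)))) ≤ p ^ T.card := by
  classical
  induction T using Finset.induction_on with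
  | empty =>
    have : sUnits F (S : Set (HeightOneSpectrum (𝓞 F))) ≤ chooseT_K F p ∅ := fun u _ v hv => by
      simp at hv
    rw [Subgroup.relIndex_eq_one.mpr this]
    simp
  | insert v T hvT ih =>
    have hvS : v ∉ S := fun h => (Finset.disjoint_left.mp hT h) (Finset.mem_insert_self v T)
    have hT' : Disjoint S T := hT.mono_right (Finset.subset_insert v T)
    obtain ⟨h1, h2⟩ := ih hT'
    obtain ⟨h3, h4⟩ := chooseT_relIndex_powMod hLC hp hζ hS hvS
    rw [chooseT_K_insert, Finset.card_insert_of_notMem hvT]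
    refine ⟨Subgroup.relIndex_inf_ne_zero h3 h1, Subgroup.relIndex_inf_le.trans ?_⟩
    rw [pow_succ, mul_comm]
    exact Nat.mul_le_mul h2 h4

/-- The subgroup `⟨a⟩ E_S^p`. -/
noncomputable def chooseT_A (F : Type) [Field F] [NumberField F] (p : ℕ)
    (S : Finset (HeightOneSpectrum (𝓞 F))) (a : Fˣ) : Subgroup Fˣ :=
  Subgroup.zpowers a ⊔ sUnitsPow F p (S : Set (HeightOneSpectrum (𝓞 F)))

lemma chooseT_pow_le (F : Type) [Field F] [NumberField F] (p : ℕ)
    (S : Finset (HeightOneSpectrum (𝓞 F))) :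
    sUnitsPow F p (S : Set (HeightOneSpectrum (𝓞 F))) ≤
      sUnits F (S : Set (HeightOneSpectrum (𝓞 F))) := by
  rintro x ⟨y, hy, rfl⟩
  exact Subgroup.pow_mem _ hy p

lemma chooseT_A_le {a : Fˣ} (ha : a ∈ sUnits F (S : Set (HeightOneSpectrum (𝓞 F)))) :
    chooseT_A F p S a ≤ sUnits F (S : Set (HeightOneSpectrum (𝓞 F))) :=
  sup_le ((Subgroup.zpowers_le).mpr ha) (chooseT_pow_le F p S)

lemma chooseT_relIndex_A (hp : p.Prime) {a : Fˣ}
    (ha : a ∈ sUnits F (S : Set (HeightOneSpectrum (𝓞 F)))) :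
    (sUnitsPow F p (S : Set (HeightOneSpectrum (𝓞 F)))).relIndex (chooseT_A F p S a) ≠ 0 ∧
      (sUnitsPow F p (S : Set (HeightOneSpectrum (𝓞 F)))).relIndex (chooseT_A F p S a) ≤ p := by
  have hp0 : (p : ℤ) ≠ 0 := by exact_mod_cast hp.ne_zero
  refine chooseT_relIndex_le _ _ (u₀ := a)
    (Subgroup.mem_sup_left (Subgroup.mem_zpowers a)) fun x hx => ?_
  obtain ⟨h, hh, y, hy, rfl⟩ := Subgroup.mem_sup.mp hx
  obtain ⟨k, rfl⟩ := Subgroup.mem_zpowers_iff.mp hh
  obtain ⟨z, hz, rfl⟩ := hy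
  -- `i = (-k) mod p`
  refine ⟨((-k) % (p : ℤ)).toNat, ?_, ?_⟩
  · have h1 := Int.emod_lt_of_pos (-k) (by exact_mod_cast hp.pos : (0 : ℤ) < p)
    have h2 := Int.emod_nonneg (-k) hp0
    omega
  · have h2 := Int.emod_nonneg (-k) hp0
    have hdiv : (p : ℤ) ∣ k + (-k) % (p : ℤ) := by
      have := Int.emod_emod_of_dvd (-k) (dvd_refl (p : ℤ))
      have h3 : (k + (-k) % (p : ℤ)) % (p : ℤ) = 0 := by
        rw [Int.add_emod, Int.emod_emod_of_dvd _ (dvd_refl _), ← Int.add_emod, add_neg_cancel,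
          Int.zero_emod]
      exact Int.dvd_of_emod_eq_zero h3
    obtain ⟨m, hm⟩ := hdiv
    refine ⟨a ^ m * z, Subgroup.mul_mem _ (Subgroup.zpow_mem _ ha m) hz, ?_⟩
    simp only [powMonoidHom_apply]
    rw [mul_pow, ← zpow_natCast (a ^ m) p, ← zpow_mul, mul_comm m, ← hm, zpow_add,
      ← zpow_natCast a (((-k) % (p : ℤ)).toNat), Int.toNat_of_nonneg h2]
    rw [mul_right_comm]

end Construction

/-! ### The main theorem -/

section Main

variable {p : ℕ} {S : Finset (HeightOneSpectrum (𝓞 F))}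

/-- If `u = a ^ i * b ^ p` in `F` with `u, a` `S`-units then `u ∈ ⟨a⟩ E_S^p`. -/
lemma chooseT_mem_A (hp : p.Prime) {a u : Fˣ}
    (ha : a ∈ sUnits F (S : Set (HeightOneSpectrum (𝓞 F))))
    (hu : u ∈ sUnits F (S : Set (HeightOneSpectrum (𝓞 F)))) {i : ℕ} {b : F}
    (h : (u : F) = (a : F) ^ i * b ^ p) : u ∈ chooseT_A F p S a := by
  have hb0 : b ≠ 0 := by
    rintro rfl
    rw [zero_pow hp.ne_zero, mul_zero] at h
    exact u.ne_zero h
  have hbE : Units.mk0 b hb0 ∈ sUnits F (S : Set (HeightOneSpectrum (𝓞 F))) := by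
    rw [mem_sUnits]
    intro v hv
    have h1 := (mem_sUnits _ u).mp hu v hv
    have h2 := (mem_sUnits _ a).mp ha v hv
    rw [h, map_mul, map_pow, map_pow, h2, one_pow, one_mul] at h1
    exact (pow_eq_one_iff.mp h1).resolve_right hp.ne_zero
  have hu' : u = a ^ i * (Units.mk0 b hb0) ^ p := by
    ext
    simp [h]
  rw [hu']
  exact Subgroup.mul_mem _ (Subgroup.mem_sup_left (Subgroup.pow_mem _ (Subgroup.mem_zpowers a) i))
    (Subgroup.mem_sup_right ⟨_, hbE, rfl⟩)

/-- Extending `T` by a prime `v` at which some `u ∈ K(T)` is not a residue keeps surjectivity. -/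
lemma chooseT_residueSurjective_insert [DecidableEq (HeightOneSpectrum (𝓞 F))]
    (hLC : LocalCyclic) (hp : p.Prime) {ζ : F} (hζ : IsPrimitiveRoot ζ p)
    {T : Finset (HeightOneSpectrum (𝓞 F))} (hT : ResidueSurjective F p S T)
    {v : HeightOneSpectrum (𝓞 F)} (hvS : v ∉ S) (hvp : (p : 𝓞 F) ∉ v.asIdeal) {u : Fˣ}
    (huE : u ∈ sUnits F (S : Set (HeightOneSpectrum (𝓞 F)))) (huK : u ∈ chooseT_K F p T)
    (huv : ¬ IsPowMod F v p (u : F)) : ResidueSurjective F p S (insert v T) := by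
  intro c hc
  obtain ⟨u₁, hu₁, h₁⟩ := hT c fun w hw => hc w (Finset.mem_insert_of_mem hw)
  have hvS' : v ∉ (S : Set (HeightOneSpectrum (𝓞 F))) := by simpa using hvS
  have hx : v.valuation F ((u₁ : F) * c v) = 1 := by
    rw [map_mul, (mem_sUnits _ u₁).mp hu₁ v hvS', hc v (Finset.mem_insert_self v T), one_mul]
  obtain ⟨i, -, hi⟩ := hLC p F ζ ((u₁ : F) * c v) (u : F) v hp hζ hvp hx
    ((mem_sUnits _ u).mp huE v hvS') huv
  refine ⟨u₁ * u ^ i, Subgroup.mul_mem _ hu₁ (Subgroup.pow_mem _ huE i), fun w hw => ?_⟩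
  have e : ((u₁ * u ^ i : Fˣ) : F) * c w = ((u₁ : F) * c w) * ((u ^ i : Fˣ) : F) := by
    push_cast; ring
  rw [e]
  rcases Finset.mem_insert.mp hw with rfl | hw
  · simpa using hi
  · exact chooseT_isPowMod_mul (h₁ w hw) ((Subgroup.pow_mem _ huK i) w hw)

/-- **WP5**: the choice of the auxiliary set `T`. -/
theorem chooseT (hSU : SUnitRank) (hKNS : KummerNonSplit) (hLC : LocalCyclic) : ChooseT := by
  classical
  intro p F _ _ ζ a S hp hp2 hζ hS ha hna
  set E := sUnits F (S : Set (HeightOneSpectrum (𝓞 F))) with hE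
  set P := sUnitsPow F p (S : Set (HeightOneSpectrum (𝓞 F))) with hP
  set n := Module.finrank ℚ F / 2 + S.card with hn
  have hrank : P.relIndex E = p ^ n := hSU p F ζ S hp hp2 hζ
  have hPA : P ≤ chooseT_A F p S a := le_sup_right
  have hAE : chooseT_A F p S a ≤ E := chooseT_A_le ha
  -- `n ≥ 1`
  have hn1 : 1 ≤ n := by
    by_contra h0
    have hn0 : n = 0 := by omega
    rw [hn0, pow_zero, Subgroup.relIndex_eq_one] at hrank
    obtain ⟨y, -, hy⟩ := hrank ha
    exact hna ⟨(y : F), by rw [← hy]; simp⟩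
  -- the index of `⟨a⟩ E^p` is at least `p^(n-1)`
  have hA : p ^ (n - 1) ≤ (chooseT_A F p S a).relIndex E := by
    have h1 := Subgroup.relIndex_mul_relIndex P (chooseT_A F p S a) E hPA hAE
    obtain ⟨h2, h3⟩ := chooseT_relIndex_A (S := S) hp ha
    rw [hrank] at h1
    have h4 : p ^ n = p * p ^ (n - 1) := by
      rw [← pow_succ', Nat.sub_add_cancel hn1]
    have h5 : p * p ^ (n - 1) ≤ p * (chooseT_A F p S a).relIndex E := by
      rw [← h4, ← h1]
      exact Nat.mul_le_mul_right _ h3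
    exact Nat.le_of_mul_le_mul_left h5 hp.pos
  -- the induction
  have key : ∀ j : ℕ, j + 1 ≤ n → ∃ T : Finset (HeightOneSpectrum (𝓞 F)), Disjoint S T ∧
      T.card = j ∧ (∀ v ∈ T, IsPowMod F v p (a : F)) ∧ ResidueSurjective F p S T := by
    intro j
    induction j with
    | zero =>
      intro _
      refine ⟨∅, Finset.disjoint_empty_right S, rfl, fun v hv => by simp at hv, fun c _ => ?_⟩
      exact ⟨1, Subgroup.one_mem _, fun v hv => by simp at hv⟩
    | succ j ih =>
      intro hj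
      obtain ⟨T, hST, hcard, haT, hsurj⟩ := ih (by omega)
      -- an element of `K(T) ∩ E` outside `⟨a⟩ E^p`
      obtain ⟨h1, h2⟩ := chooseT_relIndex_K hLC hp hζ hS T hST
      have hex : ∃ u : Fˣ, u ∈ E ∧ u ∈ chooseT_K F p T ∧ u ∉ chooseT_A F p S a := by
        by_contra hcon
        push Not at hcon
        have hle : chooseT_K F p T ⊓ E ≤ chooseT_A F p S a := fun u hu => hcon u hu.2 hu.1
        have h3 : (chooseT_K F p T ⊓ E).relIndex E = (chooseT_K F p T).relIndex E :=
          Subgroup.inf_relIndex_right _ _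
        have h4 := Subgroup.relIndex_le_of_le_left (L := E) hle (by rw [h3]; exact h1)
        rw [h3] at h4
        have h5 : p ^ (n - 1) ≤ p ^ j := by
          calc p ^ (n - 1) ≤ _ := hA
            _ ≤ _ := h4
            _ ≤ p ^ T.card := h2
            _ = p ^ j := by rw [hcard]
        have := (Nat.pow_le_pow_iff_right hp.one_lt).mp h5
        omega
      obtain ⟨u, huE, huK, huA⟩ := hex
      obtain ⟨v, hvB, hvp, hva, hvu, hav, huv⟩ := hKNS p F ζ (a : F) (u : F) (S ∪ T) hp hp2 hζ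
        a.ne_zero u.ne_zero hna (fun i b h => huA (chooseT_mem_A hp ha huE h))
      have hvS : v ∉ S := fun h => hvB (Finset.mem_union_left T h)
      have hvT : v ∉ T := fun h => hvB (Finset.mem_union_right S h)
      refine ⟨insert v T, ?_, ?_, ?_, ?_⟩
      · rw [Finset.disjoint_insert_right]
        exact ⟨hvS, hST⟩
      · rw [Finset.card_insert_of_notMem hvT, hcard]
      · intro w hw
        rcases Finset.mem_insert.mp hw with rfl | hw
        · exact hav
        · exact haT w hw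
      · exact chooseT_residueSurjective_insert hLC hp hζ hsurj hvS hvp huE huK huv
  obtain ⟨T, hST, hcard, haT, hsurj⟩ := key (n - 1) (by omega)
  exact ⟨T, hST, by rw [hcard]; omega, haT, hsurj⟩

end Main
end Fermat.Agent.S14SI
end MergeWrap_S14_SI_ChooseT

section MergeWrap_S14_SI_KeyLemma -- from S14/SI/KeyLemma.lean

/-!
# S14 / H2 Route I, WP7: the key lemma

`keyLemma : TameFirstIneq → KummerSplits → KeyLemma`.

If the `(S ∪ T)`-unit `x` is not a `p`-th power, then `M = F[X] / (X ^ p - x)` is a Kummer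
extension of degree `p` in which every `v ∈ S` splits completely (`KummerSplits`), contradicting
the tame first inequality.
-/

set_option autoImplicit false

open NumberField IsDedekindDomain Polynomial

namespace Fermat.Agent.S14SI

/-- The Kummer extension `F(x^{1/p})` of a number field containing a primitive `p`-th root of
unity, for `x` not a `p`-th power, packaged as: a number field `M`, Galois of degree `p` over `F`,
with a generator `α`, `α ^ p = x`, `α ∉ F`. -/
theorem keyLemma_exists_kummer_extension (p : ℕ) (F : Type) [Field F] [NumberField F] (ζ x : F)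
    (hp : p.Prime) (hζ : IsPrimitiveRoot ζ p) (hx : ¬ ∃ y : F, y ^ p = x) :
    ∃ (M : Type) (_ : Field M) (_ : NumberField M) (_ : Algebra F M) (_ : IsGalois F M)
      (α : M), Module.finrank F M = p ∧ α ^ p = algebraMap F M x ∧
        ∀ b : F, algebraMap F M b ≠ α := by
  have hirr : Irreducible (X ^ p - C x : F[X]) :=
    X_pow_sub_C_irreducible_of_prime hp (fun b hb => hx ⟨b, hb⟩)
  have : Fact (Irreducible (X ^ p - C x : F[X])) := ⟨hirr⟩
  have hprim : (primitiveRoots p F).Nonempty :=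
    ⟨ζ, (mem_primitiveRoots hp.pos).mpr hζ⟩
  have hsplit : IsSplittingField F (AdjoinRoot (X ^ p - C x : F[X])) (X ^ p - C x) :=
    isSplittingField_AdjoinRoot_X_pow_sub_C hprim hirr
  have hfin : FiniteDimensional F (AdjoinRoot (X ^ p - C x : F[X])) :=
    Polynomial.IsSplittingField.finiteDimensional _ (X ^ p - C x : F[X])
  have hroot : (AdjoinRoot.root (X ^ p - C x : F[X])) ^ p =
      algebraMap F (AdjoinRoot (X ^ p - C x : F[X])) x := by
    have h0 := AdjoinRoot.eval₂_root (X ^ p - C x : F[X])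
    rw [eval₂_sub, eval₂_pow, eval₂_X, eval₂_C, sub_eq_zero] at h0
    exact h0
  refine ⟨AdjoinRoot (X ^ p - C x : F[X]), inferInstance,
    NumberField.of_module_finite F _, inferInstance,
    isGalois_of_isSplittingField_X_pow_sub_C hprim hirr _,
    AdjoinRoot.root (X ^ p - C x : F[X]),
    finrank_of_isSplittingField_X_pow_sub_C hprim hirr _, hroot, ?_⟩
  intro b hb
  apply hx
  refine ⟨b, ?_⟩
  apply (algebraMap F (AdjoinRoot (X ^ p - C x : F[X]))).injective
  rw [map_pow, hb, hroot]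

/-- **WP7 (key lemma)** from the tame first inequality and the split lemma. -/
theorem keyLemma (hTFI : TameFirstIneq) (hKS : KummerSplits) : KeyLemma := by
  intro p F _ _ ζ x S T hp hp2 hζ hS hgen hdisj hres hxST hloc
  by_contra hx
  obtain ⟨M, _, _, _, _, α, hrank, hα, hne⟩ :=
    keyLemma_exists_kummer_extension p F ζ (x : F) hp hζ hx
  refine hTFI p F M ζ x α S T hp hp2 hζ hrank hα hne hxST hS hgen hdisj (fun v hv => ?_) hres
  exact hKS p F M ζ (x : F) α v hp hζ hrank hα hne (hloc v hv)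

end Fermat.Agent.S14SI
end MergeWrap_S14_SI_KeyLemma

section MergeWrap_S14_SI_LocalCount -- from S14/SI/LocalCount.lean

/-!
# S14 / H2 Route I, WP2: local counts (helper39)

`localCount : LocalCount`:  `[Fˣ : U_S] ≠ 0` and `[Fˣ : U_S] ≤ p ^ (2 |S| + [F : ℚ])`, where `U_S` is the
subgroup of elements that are local `p`-th powers (finite-level sense) at all `v ∈ S`.

Proof.  `U_S = ⋂ U_v`, and `[Fˣ : U_v] ≤ p · |A / A^p|`, `A = (𝓞 / v^N)ˣ`, `N = p e + 1`, `e = ord_v (ζ - 1)`
(covering of `Fˣ` by the cosets of `π^i · r`, `i < p`, `r` a lift of a representative of `A / A^p`);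
`|A / A^p| = |A[p]| ≤ p · Nv^((p-1) e)` because `x^p ≡ 1 mod v^N` forces `x ≡ η mod v^(e+1)` for a
`p`-th root of unity `η` (pigeonhole on `x^p - 1 = ∏ (x - η)`); finally
`∏_v v^((p-1) e_v)` divides `(ζ - 1)^(p-1)`, which divides `p`, so `∏_v Nv^((p-1) e_v) ≤ p^[F:ℚ]`.
-/

set_option autoImplicit false

open NumberField IsDedekindDomain

namespace Fermat.Agent.S14SI.LC

/-- covering lemma: if finitely many cosets cover the group, the index is finite and bounded. -/
theorem index_le_of_cover {G : Type*} [Group G] (H : Subgroup G) {ι : Type*} [Finite ι]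
    (g : ι → G) (hcov : ∀ x : G, ∃ i, (g i)⁻¹ * x ∈ H) :
    H.index ≠ 0 ∧ H.index ≤ Nat.card ι := by
  have hsurj : Function.Surjective (fun i : ι => (QuotientGroup.mk (g i) : G ⧸ H)) := by
    intro y
    induction y using QuotientGroup.induction_on with
    | H x =>
      obtain ⟨i, hi⟩ := hcov x
      exact ⟨i, QuotientGroup.eq.mpr hi⟩
  have : Finite (G ⧸ H) := Finite.of_surjective _ hsurj
  refine ⟨?_, ?_⟩
  · rw [Subgroup.index_eq_card]
    exact Nat.card_pos.ne'
  · rw [Subgroup.index_eq_card]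
    exact Nat.card_le_card_of_surjective _ hsurj

/-- in a finite commutative group, `|A / A^p| = |A[p]|`. -/
theorem card_quot_pow_eq_card_ker {A : Type*} [CommGroup A] [Finite A] (p : ℕ) :
    Nat.card (A ⧸ (powMonoidHom p : A →* A).range) = Nat.card (powMonoidHom p : A →* A).ker := by
  set f : A →* A := powMonoidHom p
  have h1 : Nat.card f.ker * f.ker.index = Nat.card A := Subgroup.card_mul_index _
  have h2 : Nat.card f.range * f.range.index = Nat.card A := Subgroup.card_mul_index _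
  rw [Subgroup.index_ker] at h1
  rw [Subgroup.index_eq_card] at h2
  have hpos : 0 < Nat.card f.range := Nat.card_pos
  have : Nat.card f.range * Nat.card (A ⧸ f.range) = Nat.card f.range * Nat.card f.ker := by
    rw [h2, ← h1, mul_comm]
  exact Nat.eq_of_mul_eq_mul_left hpos this

end Fermat.Agent.S14SI.LC

namespace Fermat.Agent.S14SI.LC

variable {F : Type*} [Field F] [NumberField F]

/-- discrete step: not in `v^(e+1)` means valuation at least `exp (-e)`. -/
theorem exp_neg_le_intValuation_of_notMem (v : HeightOneSpectrum (𝓞 F)) {a : 𝓞 F} {e : ℕ}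
    (ha : a ∉ v.asIdeal ^ (e + 1)) : WithZero.exp (-(e : ℤ)) ≤ v.intValuation a := by
  have ha0 : a ≠ 0 := by
    rintro rfl
    exact ha (Ideal.zero_mem _)
  rw [← v.intValuation_le_pow_iff_mem] at ha
  rw [v.intValuation_if_neg ha0] at ha ⊢
  rw [WithZero.exp_le_exp] at ha ⊢
  push_cast at ha ⊢
  omega

/-- pigeonhole: a product of `n` elements none of which lies in `v^(e+1)` is not in
`v^(n e + 1)`. -/
theorem prod_notMem_pow (v : HeightOneSpectrum (𝓞 F)) {ι : Type*} (s : Finset ι) (f : ι → 𝓞 F)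
    (e : ℕ) (h : ∀ i ∈ s, f i ∉ v.asIdeal ^ (e + 1)) :
    ∏ i ∈ s, f i ∉ v.asIdeal ^ (s.card * e + 1) := by
  classical
  have key : WithZero.exp (-((s.card * e : ℕ) : ℤ)) ≤ v.intValuation (∏ i ∈ s, f i) := by
    induction s using Finset.induction_on with
    | empty => simp
    | insert a s has ih =>
      rw [Finset.prod_insert has, map_mul, Finset.card_insert_of_notMem has]
      have h1 := exp_neg_le_intValuation_of_notMem v (h a (Finset.mem_insert_self a s))
      have h2 := ih (fun i hi => h i (Finset.mem_insert_of_mem hi))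
      have : WithZero.exp (-(((s.card + 1) * e : ℕ) : ℤ))
          = WithZero.exp (-(e : ℤ)) * WithZero.exp (-((s.card * e : ℕ) : ℤ)) := by
        rw [← WithZero.exp_add]
        congr 1
        push_cast
        ring
      rw [this]
      exact mul_le_mul' h1 h2
  intro hmem
  rw [← v.intValuation_le_pow_iff_mem] at hmem
  have := key.trans hmem
  rw [WithZero.exp_le_exp] at this
  push_cast at this
  omega

end Fermat.Agent.S14SI.LC

namespace Fermat.Agent.S14SI.LC

variable {F : Type*} [Field F] [NumberField F]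

theorem card_quot_pow (v : HeightOneSpectrum (𝓞 F)) (k : ℕ) :
    Nat.card (𝓞 F ⧸ v.asIdeal ^ k) = Ideal.absNorm v.asIdeal ^ k := by
  rw [← map_pow, Ideal.absNorm_apply, Submodule.cardQuot_apply]

theorem finite_quot_pow (v : HeightOneSpectrum (𝓞 F)) (k : ℕ) :
    Finite (𝓞 F ⧸ v.asIdeal ^ k) :=
  Ideal.finiteQuotientOfFreeOfNeBot _ (pow_ne_zero k v.ne_bot)

theorem absNorm_pos (v : HeightOneSpectrum (𝓞 F)) : 0 < Ideal.absNorm v.asIdeal := by
  rw [Nat.pos_iff_ne_zero, Ne, Ideal.absNorm_eq_zero_iff]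
  exact v.ne_bot

/-- the kernel of `𝓞/v^N → 𝓞/v^k` (`k ≤ N`) has `Nv^(N-k)` elements. -/
theorem card_ker_factor (v : HeightOneSpectrum (𝓞 F)) {k N : ℕ} (hkN : k ≤ N) :
    Nat.card (RingHom.ker (Ideal.Quotient.factor (Ideal.pow_le_pow_right hkN) :
      (𝓞 F ⧸ v.asIdeal ^ N) →+* (𝓞 F ⧸ v.asIdeal ^ k))) = Ideal.absNorm v.asIdeal ^ (N - k) := by
  set f : (𝓞 F ⧸ v.asIdeal ^ N) →+* (𝓞 F ⧸ v.asIdeal ^ k) :=
    Ideal.Quotient.factor (Ideal.pow_le_pow_right hkN) with hf
  have hsurj : Function.Surjective f := Ideal.Quotient.factor_surjective _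
  have h1 : Nat.card (f.toAddMonoidHom.ker) * (f.toAddMonoidHom.ker).index
      = Nat.card (𝓞 F ⧸ v.asIdeal ^ N) := AddSubgroup.card_mul_index _
  rw [AddSubgroup.index_ker] at h1
  have hr : f.toAddMonoidHom.range = ⊤ := AddMonoidHom.range_eq_top.mpr hsurj
  rw [hr] at h1
  have h2 : Nat.card (⊤ : AddSubgroup (𝓞 F ⧸ v.asIdeal ^ k)) = Nat.card (𝓞 F ⧸ v.asIdeal ^ k) :=
    Nat.card_congr (Equiv.Set.univ _)
  rw [h2, card_quot_pow, card_quot_pow] at h1
  have h3 : Nat.card (RingHom.ker f) = Nat.card (f.toAddMonoidHom.ker) := rfl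
  rw [h3]
  have hpos : 0 < Ideal.absNorm v.asIdeal ^ k := pow_pos (absNorm_pos v) k
  apply Nat.eq_of_mul_eq_mul_right hpos
  rw [h1, ← pow_add, Nat.sub_add_cancel hkN]

end Fermat.Agent.S14SI.LC

namespace Fermat.Agent.S14SI.LC

variable {F : Type*} [Field F] [NumberField F]

theorem exists_root_congr (v : HeightOneSpectrum (𝓞 F)) {p : ℕ} (hp : 0 < p) {ζ₀ : 𝓞 F}
    (hζ : IsPrimitiveRoot ζ₀ p) (e : ℕ) {x : 𝓞 F} (hx : x ^ p - 1 ∈ v.asIdeal ^ (p * e + 1)) :
    ∃ η ∈ Polynomial.nthRootsFinset p (1 : 𝓞 F), x - η ∈ v.asIdeal ^ (e + 1) := by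
  by_contra hcon
  push Not at hcon
  have h := prod_notMem_pow v (Polynomial.nthRootsFinset p (1 : 𝓞 F)) (fun η => x - η) e hcon
  rw [hζ.card_nthRootsFinset] at h
  apply h
  have := hζ.pow_sub_pow_eq_prod_sub_mul x 1 hp
  simp only [one_pow, mul_one] at this
  rw [← this]
  exact hx

theorem card_ker_pow_le (v : HeightOneSpectrum (𝓞 F)) {p : ℕ} (hp : 0 < p) {ζ₀ : 𝓞 F}
    (hζ : IsPrimitiveRoot ζ₀ p) (e : ℕ) :
    Nat.card (powMonoidHom p : (𝓞 F ⧸ v.asIdeal ^ (p * e + 1))ˣ →* _).ker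
      ≤ p * Ideal.absNorm v.asIdeal ^ ((p - 1) * e) := by
  classical
  haveI : Finite (𝓞 F ⧸ v.asIdeal ^ (p * e + 1)) := finite_quot_pow v _
  have hkN : e + 1 ≤ p * e + 1 := by
    have : e ≤ p * e := Nat.le_mul_of_pos_left e hp
    omega
  set f : (𝓞 F ⧸ v.asIdeal ^ (p * e + 1)) →+* (𝓞 F ⧸ v.asIdeal ^ (e + 1)) :=
    Ideal.Quotient.factor (Ideal.pow_le_pow_right hkN) with hf
  -- for every element of the kernel choose a root of unity close to it
  have hex : ∀ a : (powMonoidHom p : (𝓞 F ⧸ v.asIdeal ^ (p * e + 1))ˣ →* _).ker,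
      ∃ η : Polynomial.nthRootsFinset p (1 : 𝓞 F),
        ((a : (𝓞 F ⧸ v.asIdeal ^ (p * e + 1))ˣ) : 𝓞 F ⧸ v.asIdeal ^ (p * e + 1))
          - Ideal.Quotient.mk _ (η : 𝓞 F) ∈ RingHom.ker f := by
    rintro ⟨a, ha⟩
    obtain ⟨x, hx⟩ := Ideal.Quotient.mk_surjective (a : 𝓞 F ⧸ v.asIdeal ^ (p * e + 1))
    have hap : a ^ p = 1 := by simpa [MonoidHom.mem_ker] using ha
    have hxp : x ^ p - 1 ∈ v.asIdeal ^ (p * e + 1) := by
      rw [← Ideal.Quotient.eq_zero_iff_mem, map_sub, map_pow, map_one, hx, ← Units.val_pow_eq_pow_val,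
        hap, Units.val_one, sub_self]
    obtain ⟨η, hη, hmem⟩ := exists_root_congr v hp hζ e hxp
    refine ⟨⟨η, hη⟩, ?_⟩
    rw [RingHom.mem_ker, ← hx, ← map_sub, hf, Ideal.Quotient.factor_mk,
      Ideal.Quotient.eq_zero_iff_mem]
    exact hmem
  choose η hη using hex
  let Φ : (powMonoidHom p : (𝓞 F ⧸ v.asIdeal ^ (p * e + 1))ˣ →* _).ker →
      (Polynomial.nthRootsFinset p (1 : 𝓞 F)) × (RingHom.ker f) :=
    fun a => (η a, ⟨_, hη a⟩)
  have hinj : Function.Injective Φ := by
    intro a b hab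
    have h1 : η a = η b := congrArg Prod.fst hab
    have h2 := congrArg (fun z => ((Prod.snd z : RingHom.ker f) : 𝓞 F ⧸ v.asIdeal ^ (p * e + 1))) hab
    simp only [Φ] at h2
    rw [h1] at h2
    have h3 : ((a : (𝓞 F ⧸ v.asIdeal ^ (p * e + 1))ˣ) : 𝓞 F ⧸ v.asIdeal ^ (p * e + 1))
        = ((b : (𝓞 F ⧸ v.asIdeal ^ (p * e + 1))ˣ) : 𝓞 F ⧸ v.asIdeal ^ (p * e + 1)) :=
      sub_left_injective h2
    exact Subtype.ext (Units.ext h3)
  have hfin : Finite ((Polynomial.nthRootsFinset p (1 : 𝓞 F)) × (RingHom.ker f)) := inferInstance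
  have hcard := Nat.card_le_card_of_injective Φ hinj
  have hroots : Nat.card (Polynomial.nthRootsFinset p (1 : 𝓞 F)) = p := by
    rw [Nat.card_eq_fintype_card, Fintype.card_coe, hζ.card_nthRootsFinset]
  rw [Nat.card_prod, hroots, hf, card_ker_factor v hkN] at hcard
  have hNk : p * e + 1 - (e + 1) = (p - 1) * e := by
    rw [Nat.sub_mul]; omega
  rwa [hNk] at hcard

end Fermat.Agent.S14SI.LC

namespace Fermat.Agent.S14SI.LC

variable {F : Type*} [Field F] [NumberField F]

theorem isUnit_mk_of_notMem (v : HeightOneSpectrum (𝓞 F)) (N : ℕ) {a : 𝓞 F}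
    (ha : a ∉ v.asIdeal) : IsUnit (Ideal.Quotient.mk (v.asIdeal ^ N) a) := by
  obtain ⟨y, i, hi, hyi⟩ := v.isMaximal.exists_inv ha
  have h1 : Ideal.span {a} ⊔ v.asIdeal = ⊤ := by
    rw [Ideal.eq_top_iff_one, Ideal.mem_span_singleton_sup]
    exact ⟨y, i, hi, hyi⟩
  have h2 : Ideal.span {a} ⊔ v.asIdeal ^ N = ⊤ := Ideal.sup_pow_eq_top h1
  have h3 : (1 : 𝓞 F) ∈ Ideal.span {a} ⊔ v.asIdeal ^ N := by rw [h2]; trivial
  obtain ⟨b, c, hc, hbc⟩ := Ideal.mem_span_singleton_sup.mp h3
  have h4 : Ideal.Quotient.mk (v.asIdeal ^ N) b * Ideal.Quotient.mk (v.asIdeal ^ N) a = 1 := by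
    rw [← map_mul, ← map_one (Ideal.Quotient.mk (v.asIdeal ^ N)), ← hbc, map_add,
      Ideal.Quotient.eq_zero_iff_mem.mpr hc, add_zero]
  exact IsUnit.of_mul_eq_one _ (by rw [mul_comm]; exact h4)

theorem notMem_of_isUnit_mk (v : HeightOneSpectrum (𝓞 F)) {N : ℕ} (hN : 0 < N) {a : 𝓞 F}
    (h : IsUnit (Ideal.Quotient.mk (v.asIdeal ^ N) a)) : a ∉ v.asIdeal := by
  intro ha
  obtain ⟨b, hb⟩ := h.exists_right_inv
  obtain ⟨b', rfl⟩ := Ideal.Quotient.mk_surjective b
  rw [← map_mul, ← map_one (Ideal.Quotient.mk (v.asIdeal ^ N)), Ideal.Quotient.eq] at hb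
  have h1 : a * b' - 1 ∈ v.asIdeal := Ideal.pow_le_self hN.ne' hb
  have h2 : a * b' ∈ v.asIdeal := Ideal.mul_mem_right _ _ ha
  have h3 : (1 : 𝓞 F) ∈ v.asIdeal := by
    have := Ideal.sub_mem _ h2 h1
    simpa using this
  exact v.isPrime.ne_top ((Ideal.eq_top_iff_one _).mpr h3)

end Fermat.Agent.S14SI.LC

namespace Fermat.Agent.S14SI.LC

variable {F : Type*} [Field F] [NumberField F]

/-- the `v`-adic order of `ζ₀ - 1`. -/
noncomputable def e1 (v : HeightOneSpectrum (𝓞 F)) (ζ₀ : 𝓞 F) : ℕ :=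
  (Associates.mk v.asIdeal).count (Associates.mk (Ideal.span {ζ₀ - 1})).factors

theorem intValuation_sub_one (v : HeightOneSpectrum (𝓞 F)) {ζ₀ : 𝓞 F} (h : ζ₀ ≠ 1) :
    v.intValuation (ζ₀ - 1) = WithZero.exp (-(e1 v ζ₀ : ℤ)) :=
  v.intValuation_if_neg (sub_ne_zero.mpr h)

theorem pow_e1_dvd (v : HeightOneSpectrum (𝓞 F)) {ζ₀ : 𝓞 F} (h : ζ₀ ≠ 1) :
    v.asIdeal ^ e1 v ζ₀ ∣ Ideal.span {ζ₀ - 1} := by
  rw [← v.intValuation_le_pow_iff_dvd, intValuation_sub_one v h]

/-- lifts of units of `𝓞 / v^N` to `𝓞`. -/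
theorem exists_lift (v : HeightOneSpectrum (𝓞 F)) {N : ℕ} (hN : 0 < N)
    (a : (𝓞 F ⧸ v.asIdeal ^ N)ˣ) :
    ∃ x : 𝓞 F, Ideal.Quotient.mk (v.asIdeal ^ N) x = (a : 𝓞 F ⧸ v.asIdeal ^ N) ∧
      v.valuation F (algebraMap (𝓞 F) F x) = 1 := by
  obtain ⟨x, hx⟩ := Ideal.Quotient.mk_surjective (a : 𝓞 F ⧸ v.asIdeal ^ N)
  refine ⟨x, hx, ?_⟩
  rw [v.valuation_eq_one_iff_notMem]
  apply notMem_of_isUnit_mk v hN
  rw [hx]
  exact a.isUnit

/-- a chosen lift. -/
noncomputable def lift (v : HeightOneSpectrum (𝓞 F)) {N : ℕ} (hN : 0 < N)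
    (a : (𝓞 F ⧸ v.asIdeal ^ N)ˣ) : 𝓞 F := (exists_lift v hN a).choose

theorem mk_lift (v : HeightOneSpectrum (𝓞 F)) {N : ℕ} (hN : 0 < N)
    (a : (𝓞 F ⧸ v.asIdeal ^ N)ˣ) :
    Ideal.Quotient.mk (v.asIdeal ^ N) (lift v hN a) = (a : 𝓞 F ⧸ v.asIdeal ^ N) :=
  (exists_lift v hN a).choose_spec.1

theorem valuation_lift (v : HeightOneSpectrum (𝓞 F)) {N : ℕ} (hN : 0 < N)
    (a : (𝓞 F ⧸ v.asIdeal ^ N)ˣ) :
    v.valuation F (algebraMap (𝓞 F) F (lift v hN a)) = 1 :=
  (exists_lift v hN a).choose_spec.2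

/-- normal form: every `x ≠ 0` is `π^i * x' * c^p` with `i < p` and `x'` a `v`-unit. -/
theorem exists_normal_form (v : HeightOneSpectrum (𝓞 F)) {p : ℕ} (hp : 0 < p) {π : F}
    (hπ : v.valuation F π = WithZero.exp (-1 : ℤ)) {x : F} (hx : x ≠ 0) :
    ∃ (i : ℕ) (c x' : F), i < p ∧ c ≠ 0 ∧ v.valuation F x' = 1 ∧ x = π ^ i * x' * c ^ p := by
  have hπ0 : π ≠ 0 := by
    intro h; rw [h, map_zero] at hπ; exact WithZero.exp_ne_zero.symm hπ
  have hvx : v.valuation F x ≠ 0 := (Valuation.ne_zero_iff _).mpr hx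
  set m : ℤ := WithZero.log (v.valuation F x) with hm
  have hxm : v.valuation F x = WithZero.exp m := (WithZero.exp_log hvx).symm
  have hpz : (p : ℤ) ≠ 0 := by exact_mod_cast hp.ne'
  set i : ℕ := ((-m) % (p : ℤ)).toNat with hi
  set t : ℤ := (-m) / (p : ℤ) with ht
  have hi0 : 0 ≤ (-m) % (p : ℤ) := Int.emod_nonneg _ hpz
  have hilt : (-m) % (p : ℤ) < p := Int.emod_lt_of_pos _ (by exact_mod_cast hp)
  have hicast : (i : ℤ) = (-m) % (p : ℤ) := Int.toNat_of_nonneg hi0
  have hdecomp : -m = (p : ℤ) * t + i := by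
    rw [hicast, ht]; exact (Int.mul_ediv_add_emod (-m) p).symm
  refine ⟨i, π ^ t, x * (π ^ i)⁻¹ * ((π ^ t) ^ p)⁻¹, ?_, zpow_ne_zero _ hπ0, ?_, ?_⟩
  · have : (i : ℤ) < p := by rw [hicast]; exact hilt
    exact_mod_cast this
  · rw [map_mul, map_mul, map_inv₀, map_inv₀, map_pow, map_pow, map_zpow₀, hπ, hxm]
    rw [← WithZero.exp_zsmul, ← WithZero.exp_nsmul, ← WithZero.exp_nsmul, ← WithZero.exp_neg,
      ← WithZero.exp_neg, ← WithZero.exp_add, ← WithZero.exp_add, ← WithZero.exp_zero]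
    congr 1
    simp only [smul_eq_mul, nsmul_eq_mul]
    push_cast
    linarith
  · have h1 : π ^ i ≠ 0 := pow_ne_zero _ hπ0
    have h2 : (π ^ t) ^ p ≠ 0 := pow_ne_zero _ (zpow_ne_zero _ hπ0)
    field_simp

end Fermat.Agent.S14SI.LC

namespace Fermat.Agent.S14SI.LC

variable {F : Type*} [Field F] [NumberField F]

theorem index_single_le (v : HeightOneSpectrum (𝓞 F)) {p : ℕ} (hp : p.Prime) {ζ : F}
    (hζ : IsPrimitiveRoot ζ p) (ζ₀ : 𝓞 F) (hζ₀ : algebraMap (𝓞 F) F ζ₀ = ζ) :
    (localPowSubgroup F p ζ hζ hp.one_lt {v}).index ≠ 0 ∧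
    (localPowSubgroup F p ζ hζ hp.one_lt {v}).index
      ≤ p * (p * Ideal.absNorm v.asIdeal ^ ((p - 1) * e1 v ζ₀)) := by
  classical
  have hζ₀prim : IsPrimitiveRoot ζ₀ p := by
    have hinj : Function.Injective (algebraMap (𝓞 F) F) := RingOfIntegers.coe_injective
    exact IsPrimitiveRoot.of_map_of_injective (f := algebraMap (𝓞 F) F) (by rw [hζ₀]; exact hζ) hinj
  have hζ₀ne : ζ₀ ≠ 1 := hζ₀prim.ne_one hp.one_lt
  set e := e1 v ζ₀ with he
  set N := p * e + 1 with hNdef
  have hN : 0 < N := Nat.succ_pos _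
  -- the threshold
  have hthr : v.valuation F (ζ - 1) ^ p = WithZero.exp (-((p * e : ℕ) : ℤ)) := by
    have : v.valuation F (ζ - 1) = WithZero.exp (-(e : ℤ)) := by
      rw [← hζ₀, ← map_one (algebraMap (𝓞 F) F), ← map_sub, v.valuation_of_algebraMap,
        intValuation_sub_one v hζ₀ne]
    rw [this, ← WithZero.exp_nsmul]
    congr 1
    simp only [nsmul_eq_mul]
    push_cast
    ring
  have hthr0 : v.valuation F (ζ - 1) ^ p ≠ 0 := by rw [hthr]; exact WithZero.exp_ne_zero
  have hthr1 : v.valuation F (ζ - 1) ^ p ≤ 1 := by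
    rw [hthr, ← WithZero.exp_zero, WithZero.exp_le_exp]
    have : (0 : ℤ) ≤ ((p * e : ℕ) : ℤ) := Int.natCast_nonneg _
    omega
  have hNlt : WithZero.exp (-(N : ℤ)) < v.valuation F (ζ - 1) ^ p := by
    rw [hthr, WithZero.exp_lt_exp, hNdef]
    push_cast
    omega
  -- uniformizer
  obtain ⟨π, hπ⟩ := v.valuation_exists_uniformizer F
  have hπ0 : π ≠ 0 := by
    intro h; rw [h, map_zero] at hπ; exact WithZero.exp_ne_zero.symm hπ
  -- the finite group
  let A := (𝓞 F ⧸ v.asIdeal ^ N)ˣ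
  let P : Subgroup A := (powMonoidHom p : A →* A).range
  have hlift0 : ∀ a : A, algebraMap (𝓞 F) F (lift v hN a) ≠ 0 := by
    intro a h
    have := valuation_lift (F := F) v hN a
    rw [h, map_zero] at this
    exact zero_ne_one this
  let g : Fin p × (A ⧸ P) → Fˣ := fun iq =>
    Units.mk0 (π ^ (iq.1 : ℕ) * algebraMap (𝓞 F) F (lift v hN (Quotient.out iq.2)))
      (mul_ne_zero (pow_ne_zero _ hπ0) (hlift0 _))
  have hcov : ∀ x : Fˣ, ∃ iq, (g iq)⁻¹ * x ∈ localPowSubgroup F p ζ hζ hp.one_lt {v} := by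
    intro x
    obtain ⟨i, c, x', hi, hc, hx', hxeq⟩ := exists_normal_form v hp.pos hπ x.ne_zero
    obtain ⟨a, ha⟩ := v.exists_valuation_sub_lt_of_integer (le_of_eq hx')
      (Units.mk0 _ hthr0)
    rw [Units.val_mk0] at ha
    have hva : v.valuation F (algebraMap (𝓞 F) F a) = 1 := by
      have h1 : algebraMap (𝓞 F) F a = x' + (algebraMap (𝓞 F) F a - x') := by ring
      rw [h1, Valuation.map_add_eq_of_lt_left _ (by rw [hx']; exact lt_of_lt_of_le ha hthr1), hx']
    have ha_notMem : a ∉ v.asIdeal := (v.valuation_eq_one_iff_notMem).mp hva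
    let α : A := (isUnit_mk_of_notMem v N ha_notMem).unit
    have hαval : (α : 𝓞 F ⧸ v.asIdeal ^ N) = Ideal.Quotient.mk _ a := rfl
    let q : A ⧸ P := QuotientGroup.mk α
    set rep : A := Quotient.out q with hrep
    have hq : (QuotientGroup.mk rep : A ⧸ P) = QuotientGroup.mk α := QuotientGroup.out_eq' q
    have hmemP : rep⁻¹ * α ∈ P := QuotientGroup.eq.mp hq
    obtain ⟨β, hβ⟩ := hmemP
    have hβ' : β ^ p = rep⁻¹ * α := hβ
    set r : 𝓞 F := lift v hN rep with hr
    set s : 𝓞 F := lift v hN β with hs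
    have hmk : Ideal.Quotient.mk (v.asIdeal ^ N) (r * s ^ p) = Ideal.Quotient.mk _ a := by
      rw [map_mul, map_pow, mk_lift, mk_lift, ← hαval, ← Units.val_pow_eq_pow_val, ← Units.val_mul,
        hβ', mul_inv_cancel_left]
    have hmem : a - r * s ^ p ∈ v.asIdeal ^ N := by
      rw [← Ideal.Quotient.eq]; exact hmk.symm
    have hval1 : v.valuation F (algebraMap (𝓞 F) F (a - r * s ^ p)) < v.valuation F (ζ - 1) ^ p := by
      rw [v.valuation_of_algebraMap]
      exact lt_of_le_of_lt ((v.intValuation_le_pow_iff_mem _ _).mpr hmem) hNlt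
    set R : F := algebraMap (𝓞 F) F r with hR
    set S : F := algebraMap (𝓞 F) F s with hS
    have hvR : v.valuation F R = 1 := valuation_lift v hN rep
    have hvS : v.valuation F S = 1 := valuation_lift v hN β
    have hR0 : R ≠ 0 := hlift0 rep
    have hS0 : S ≠ 0 := hlift0 β
    have hx'RS : v.valuation F (x' - R * S ^ p) < v.valuation F (ζ - 1) ^ p := by
      have h1 : x' - R * S ^ p = (algebraMap (𝓞 F) F (a - r * s ^ p)) - (algebraMap (𝓞 F) F a - x') := by
        rw [map_sub, map_mul, map_pow]; ring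
      rw [h1]
      exact lt_of_le_of_lt (Valuation.map_sub _ _ _) (max_lt hval1 ha)
    refine ⟨(⟨i, hi⟩, q), ?_⟩
    intro w hw
    rw [Finset.mem_singleton] at hw
    subst hw
    refine ⟨c⁻¹ * S⁻¹, mul_ne_zero (inv_ne_zero hc) (inv_ne_zero hS0), ?_⟩
    have hcoe : (((g (⟨i, hi⟩, q))⁻¹ * x : Fˣ) : F) = (π ^ i * R)⁻¹ * (x : F) := by
      rw [Units.val_mul, Units.val_inv_eq_inv_val]
      rfl
    rw [hcoe, hxeq]
    have hcalc : (π ^ i * R)⁻¹ * (π ^ i * x' * c ^ p) * (c⁻¹ * S⁻¹) ^ p - 1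
        = (x' - R * S ^ p) * (R * S ^ p)⁻¹ := by
      have h1 : π ^ i ≠ 0 := pow_ne_zero _ hπ0
      have h2 : c ^ p ≠ 0 := pow_ne_zero _ hc
      have h3 : S ^ p ≠ 0 := pow_ne_zero _ hS0
      rw [mul_pow, inv_pow, inv_pow]
      field_simp
    rw [hcalc, map_mul, map_inv₀, map_mul, map_pow, hvR, hvS, one_pow, mul_one, inv_one, mul_one]
    exact hx'RS
  haveI : Finite (𝓞 F ⧸ v.asIdeal ^ N) := finite_quot_pow v _
  have hfinA : Finite A := inferInstance
  have hmain := index_le_of_cover (localPowSubgroup F p ζ hζ hp.one_lt {v}) g hcov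
  refine ⟨hmain.1, hmain.2.trans ?_⟩
  rw [Nat.card_prod, Nat.card_eq_fintype_card, Fintype.card_fin]
  apply Nat.mul_le_mul_left
  rw [card_quot_pow_eq_card_ker]
  exact card_ker_pow_le v hp.pos hζ₀prim e

end Fermat.Agent.S14SI.LC

namespace Fermat.Agent.S14SI.LC

variable {F : Type*} [Field F] [NumberField F]

theorem sub_one_pow_dvd_prime {p : ℕ} (hp : p.Prime) {ζ₀ : 𝓞 F} (hζ : IsPrimitiveRoot ζ₀ p) :
    (ζ₀ - 1) ^ (p - 1) ∣ (p : 𝓞 F) := by
  have hp1 : p - 1 + 1 = p := Nat.sub_add_cancel hp.one_le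
  have hζ' : IsPrimitiveRoot ζ₀ (p - 1 + 1) := by rw [hp1]; exact hζ
  have h := hζ'.prod_one_sub_pow_eq_order
  have hcast : (((p - 1 : ℕ) : 𝓞 F) + 1) = (p : 𝓞 F) := by
    have : ((p - 1 + 1 : ℕ) : 𝓞 F) = (p : 𝓞 F) := by rw [hp1]
    rw [← this]; push_cast; ring
  rw [hcast] at h
  rw [← h]
  have h2 : (ζ₀ - 1) ^ (p - 1) = ∏ _k ∈ Finset.range (p - 1), (ζ₀ - 1) := by
    rw [Finset.prod_const, Finset.card_range]
  rw [h2]
  apply Finset.prod_dvd_prod_of_dvd
  intro k _
  have h3 : (1 : 𝓞 F) - ζ₀ ∣ 1 ^ (k + 1) - ζ₀ ^ (k + 1) := sub_dvd_pow_sub_pow 1 ζ₀ (k + 1)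
  rw [one_pow] at h3
  have h4 : ζ₀ - 1 ∣ 1 - ζ₀ := by
    rw [← neg_sub ζ₀ 1]; exact (dvd_neg).mpr dvd_rfl
  exact h4.trans h3

theorem prod_absNorm_le (S : Finset (HeightOneSpectrum (𝓞 F))) {p : ℕ} (hp : p.Prime)
    {ζ₀ : 𝓞 F} (hζ : IsPrimitiveRoot ζ₀ p) :
    ∏ v ∈ S, Ideal.absNorm v.asIdeal ^ ((p - 1) * e1 v ζ₀) ≤ p ^ Module.finrank ℚ F := by
  classical
  have hζne : ζ₀ ≠ 1 := hζ.ne_one hp.one_lt
  have hdvd : ∏ v ∈ S, v.asIdeal ^ ((p - 1) * e1 v ζ₀) ∣ Ideal.span {(ζ₀ - 1) ^ (p - 1)} := by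
    apply Finset.prod_dvd_of_coprime
    · intro v _ w _ hvw
      apply IsCoprime.pow
      rw [Ideal.isCoprime_iff_sup_eq]
      apply Ideal.IsMaximal.coprime_of_ne v.isMaximal w.isMaximal
      intro h
      exact hvw (HeightOneSpectrum.ext h)
    · intro v _
      rw [← Ideal.span_singleton_pow, mul_comm, pow_mul]
      exact pow_dvd_pow_of_dvd (pow_e1_dvd v hζne) _
  have hdvd2 : Ideal.span {(ζ₀ - 1) ^ (p - 1)} ∣ Ideal.span {(p : 𝓞 F)} := by
    rw [Ideal.dvd_iff_le, Ideal.span_singleton_le_span_singleton]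
    exact sub_one_pow_dvd_prime hp hζ
  have hle : Ideal.span {(p : 𝓞 F)} ≤ ∏ v ∈ S, v.asIdeal ^ ((p - 1) * e1 v ζ₀) :=
    Ideal.dvd_iff_le.mp (hdvd.trans hdvd2)
  have h1 := Ideal.absNorm_dvd_absNorm_of_le hle
  rw [Ideal.absNorm_span_natCast, RingOfIntegers.rank, map_prod] at h1
  simp only [map_pow] at h1
  exact Nat.le_of_dvd (pow_pos hp.pos _) h1

theorem localPow_insert {p : ℕ} (hp : p.Prime) {ζ : F} (hζ : IsPrimitiveRoot ζ p)
    (v : HeightOneSpectrum (𝓞 F)) (S : Finset (HeightOneSpectrum (𝓞 F))) [DecidableEq (HeightOneSpectrum (𝓞 F))] :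
    localPowSubgroup F p ζ hζ hp.one_lt (insert v S)
      = localPowSubgroup F p ζ hζ hp.one_lt {v} ⊓ localPowSubgroup F p ζ hζ hp.one_lt S := by
  ext x
  simp only [Subgroup.mem_inf, mem_localPowSubgroup, Finset.mem_insert, Finset.mem_singleton,
    forall_eq_or_imp, forall_eq]

theorem index_le_prod {p : ℕ} (hp : p.Prime) {ζ : F} (hζ : IsPrimitiveRoot ζ p)
    (ζ₀ : 𝓞 F) (hζ₀ : algebraMap (𝓞 F) F ζ₀ = ζ) (S : Finset (HeightOneSpectrum (𝓞 F))) :
    (localPowSubgroup F p ζ hζ hp.one_lt S).index ≠ 0 ∧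
    (localPowSubgroup F p ζ hζ hp.one_lt S).index
      ≤ ∏ v ∈ S, (p * (p * Ideal.absNorm v.asIdeal ^ ((p - 1) * e1 v ζ₀))) := by
  classical
  induction S using Finset.induction_on with
  | empty =>
    have : localPowSubgroup F p ζ hζ hp.one_lt ∅ = ⊤ := by
      ext x
      simp [mem_localPowSubgroup]
    rw [this, Subgroup.index_top]
    simp
  | insert v S hvS ih =>
    rw [localPow_insert hp hζ v S, Finset.prod_insert hvS]
    have h1 := index_single_le v hp hζ ζ₀ hζ₀
    refine ⟨Subgroup.index_inf_ne_zero h1.1 ih.1, ?_⟩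
    exact Subgroup.index_inf_le.trans (Nat.mul_le_mul h1.2 ih.2)

end Fermat.Agent.S14SI.LC

namespace Fermat.Agent.S14SI

open LC in
/-- **WP2 (local counts)**. -/
theorem localCount : LocalCount := by
  intro p F _ _ ζ S hp hζ
  obtain ⟨ζ₀, hζ₀⟩ := (IsIntegralClosure.isIntegral_iff (A := 𝓞 F)).mp (hζ.isIntegral hp.pos)
  have hζ₀prim : IsPrimitiveRoot ζ₀ p :=
    IsPrimitiveRoot.of_map_of_injective (f := algebraMap (𝓞 F) F) (by rw [hζ₀]; exact hζ)
      RingOfIntegers.coe_injective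
  have h := index_le_prod hp hζ ζ₀ hζ₀ S
  refine ⟨h.1, h.2.trans ?_⟩
  have h2 : ∏ v ∈ S, (p * (p * Ideal.absNorm v.asIdeal ^ ((p - 1) * e1 v ζ₀)))
      = p ^ (2 * S.card) * ∏ v ∈ S, Ideal.absNorm v.asIdeal ^ ((p - 1) * e1 v ζ₀) := by
    rw [Finset.prod_congr rfl (fun v _ => (mul_assoc p p _).symm), Finset.prod_mul_distrib,
      Finset.prod_const, ← pow_two, ← pow_mul]
  rw [h2, pow_add]
  exact Nat.mul_le_mul_left _ (prod_absNorm_le S hp hζ₀prim)

end Fermat.Agent.S14SI
end MergeWrap_S14_SI_LocalCount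

section MergeWrap_S14_SI_SplitNormClass -- from S14/SI/SplitNormClass.lean

/-!
# S14 / H2 Route I, WP3'': the class of a prime which splits completely is a norm class
(helper12)
-/

set_option autoImplicit false

open NumberField IsDedekindDomain
open scoped nonZeroDivisors

namespace Fermat.Agent.S14SI

/-- If `v` splits completely in the Galois extension `M/F`, every prime above `v` has inertia
degree one. -/
theorem wp3_inertiaDeg_eq_one_of_splitsCompletely (F M : Type*) [Field F] [NumberField F]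
    [Field M] [NumberField M] [Algebra F M] [IsGalois F M] (v : HeightOneSpectrum (𝓞 F))
    (h : SplitsCompletely F M v) (P : Ideal (𝓞 M)) [P.IsPrime] [P.LiesOver v.asIdeal] :
    P.inertiaDeg (𝓞 F) = 1 ∧ P.ramificationIdx (𝓞 F) = 1 := by
  have hfund := Ideal.ncard_primesOver_mul_ramificationIdxIn_mul_inertiaDegIn v.asIdeal (𝓞 M)
    Gal(M/F)
  rw [IsGaloisGroup.card_eq_finrank Gal(M/F) F M] at hfund
  unfold SplitsCompletely at h
  rw [h] at hfund
  have hpos : 0 < Module.finrank F M := Module.finrank_pos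
  have hone : v.asIdeal.ramificationIdxIn (𝓞 M) * v.asIdeal.inertiaDegIn (𝓞 M) = 1 := by
    have := Nat.eq_of_mul_eq_mul_left hpos (hfund.trans (mul_one _).symm)
    exact this
  have hf : v.asIdeal.inertiaDegIn (𝓞 M) = 1 := Nat.eq_one_of_mul_eq_one_left hone
  have he : v.asIdeal.ramificationIdxIn (𝓞 M) = 1 := Nat.eq_one_of_mul_eq_one_right hone
  refine ⟨?_, ?_⟩
  · rw [← Ideal.inertiaDegIn_eq_inertiaDeg v.asIdeal P Gal(M/F)]
    exact hf
  · rw [← Ideal.ramificationIdxIn_eq_ramificationIdx v.asIdeal P Gal(M/F)]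
    exact he

/-- **WP3''**: the class of a prime which splits completely in the Galois extension `M/F` is a
norm class. -/
theorem splitNormClass : SplitNormClass := by
  intro F M _ _ _ _ _ _ v h
  have hpos : 0 < Module.finrank F M := Module.finrank_pos
  have hne : (v.asIdeal.primesOver (𝓞 M)).Nonempty := by
    by_contra hcon
    rw [Set.not_nonempty_iff_eq_empty] at hcon
    unfold SplitsCompletely at h
    rw [hcon, Set.ncard_empty] at h
    omega
  obtain ⟨P, hPprime, hPover⟩ := hne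
  have := hPprime
  have := hPover
  have hP0 : P ≠ ⊥ := Ideal.ne_bot_of_liesOver_of_ne_bot v.ne_bot P
  have : v.asIdeal.IsMaximal := v.isMaximal
  have : P.IsMaximal := Ideal.IsMaximal.of_liesOver_isMaximal P v.asIdeal
  have hf := (wp3_inertiaDeg_eq_one_of_splitsCompletely F M v h P).1
  have hnorm : Ideal.relNorm (𝓞 F) P = v.asIdeal := by
    rw [Ideal.relNorm_eq_pow_of_isMaximal P v.asIdeal, hf, pow_one]
  refine ⟨⟨P, mem_nonZeroDivisors_of_ne_zero hP0⟩,
    ⟨v.asIdeal, mem_nonZeroDivisors_of_ne_zero v.ne_bot⟩, hnorm.symm, rfl⟩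

end Fermat.Agent.S14SI
end MergeWrap_S14_SI_SplitNormClass

section MergeWrap_S14_SI_SUnitRank -- from S14/SI/SUnitRank.lean

/-!
# S14 / Route I, WP1: the `S`-unit theorem modulo `p`

`|E_S / E_S ^ p| = p ^ (r₂ + |S|)` for a number field `F ∋ ζ_p` (`p` odd): `E_S` is finitely
generated of `ℤ`-rank `r₂ + |S| - 1` (`sUnitRankZ`; `F` is totally complex), its `p`-torsion is
`μ_p`, of order `p`, and for a finitely generated abelian group `G` one has
`[G : G ^ p] = p ^ rank G * |G[p]|` (the Herbrand quotient of the trivial action).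

Main results: `sUnitRank_index_range_pow` (the general index formula) and
`sUnitRank : SUnitRank`.
-/

set_option autoImplicit false

open NumberField IsDedekindDomain Module

namespace Fermat.Agent.S14SI

section General

variable {G : Type*} [CommGroup G]

/-- For a finitely generated abelian group `G` and a prime `p`:
`[G : G ^ p] = p ^ rank G * |G[p]|`, and the index is finite. -/
theorem sUnitRank_index_range_pow [Module.Finite ℤ (Additive G)] (p : ℕ) [hp : Fact p.Prime] :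
    (powMonoidHom p : G →* G).range.index =
      p ^ finrank ℤ (Additive G) * Nat.card (powMonoidHom p : G →* G).ker := by
  obtain ⟨b, hb, hkey, -, -⟩ :=
    Fermat.Agent.Herbrand.herbrand_prime_cyclic_mul (p := p) (MonoidHom.id G)
      (fun x => by rw [MonoidHom.coe_id, Function.iterate_id]; rfl)
  have htw_ker : (Fermat.Agent.Herbrand.twistHom (MonoidHom.id G)).ker = ⊤ := by
    rw [eq_top_iff]
    intro x _
    rw [Fermat.Agent.Herbrand.mem_ker_twistHom]
    rfl
  have htw_range : (Fermat.Agent.Herbrand.twistHom (MonoidHom.id G)).range = ⊥ := by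
    rw [eq_bot_iff]
    rintro _ ⟨x, rfl⟩
    rw [Subgroup.mem_bot, Fermat.Agent.Herbrand.twistHom_apply, MonoidHom.id_apply, div_self']
  have hnorm : Fermat.Agent.Herbrand.normHom p (MonoidHom.id G) = powMonoidHom p := by
    ext x
    rw [Fermat.Agent.Herbrand.normHom_apply, powMonoidHom_apply]
    simp only [MonoidHom.coe_id, Function.iterate_id, id_eq]
    rw [Finset.prod_const, Finset.card_range]
  rw [htw_ker, htw_range, hnorm] at hkey
  rw [htw_ker] at hb
  have hrk : finrank ℤ (Additive ↥(⊤ : Subgroup G)) = finrank ℤ (Additive G) := by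
    let e : Additive ↥(⊤ : Subgroup G) ≃+ Additive G :=
      MulEquiv.toAdditive (Subgroup.topEquiv : ↥(⊤ : Subgroup G) ≃* G)
    exact LinearEquiv.finrank_eq e.toIntLinearEquiv
  rw [hrk] at hb hkey
  have hb0 : b = 0 := by
    have h1 : (p - 1) * b = 0 := by omega
    rcases Nat.mul_eq_zero.mp h1 with h | h
    · have := hp.out.two_le
      omega
    · exact h
  rw [hb0, pow_zero, mul_one, Subgroup.relIndex_top_right, Subgroup.relIndex_bot_left] at hkey
  exact hkey

end General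

section NumberField

variable {F : Type} [Field F] [NumberField F]

/-- A `p`-th root of unity is an `S`-unit. -/
lemma sUnitRank_mem_sUnits_of_pow_eq_one (S : Set (HeightOneSpectrum (𝓞 F))) {p : ℕ}
    (hp : p ≠ 0) (x : Fˣ) (hx : x ^ p = 1) : x ∈ sUnits F S := by
  rw [mem_sUnits]
  intro v _
  have h1 : (v.valuation F (x : F)) ^ p = 1 := by
    rw [← Valuation.map_pow, ← Units.val_pow_eq_pow_val, hx, Units.val_one, Valuation.map_one]
  exact (pow_eq_one_iff.mp h1).resolve_right hp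

/-- The `p`-torsion of `E_S` has `p` elements if `ζ_p ∈ F`. -/
lemma sUnitRank_card_ker (S : Set (HeightOneSpectrum (𝓞 F))) {p : ℕ} (hp : p ≠ 0) {ζ : F}
    (hζ : IsPrimitiveRoot ζ p) :
    Nat.card (powMonoidHom p : ↥(sUnits F S) →* ↥(sUnits F S)).ker = p := by
  have : NeZero p := ⟨hp⟩
  have hcard : Nat.card (rootsOfUnity p F) = p := hζ.card_rootsOfUnity
  have h1 : ∀ x : ↥(powMonoidHom p : ↥(sUnits F S) →* ↥(sUnits F S)).ker,
      ((x.1 : ↥(sUnits F S)) : Fˣ) ∈ rootsOfUnity p F := by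
    intro x
    have := x.2
    rw [MonoidHom.mem_ker, powMonoidHom_apply] at this
    rw [mem_rootsOfUnity]
    have h2 := congrArg (Subtype.val : ↥(sUnits F S) → Fˣ) this
    rwa [Subgroup.coe_pow, Subgroup.coe_one] at h2
  have h2 : ∀ u : ↥(rootsOfUnity p F), (u : Fˣ) ∈ sUnits F S := fun u =>
    sUnitRank_mem_sUnits_of_pow_eq_one S hp u.1 ((mem_rootsOfUnity _ _).mp u.2)
  have h3 : ∀ u : ↥(rootsOfUnity p F),
      (⟨(u : Fˣ), h2 u⟩ : ↥(sUnits F S)) ∈
        (powMonoidHom p : ↥(sUnits F S) →* ↥(sUnits F S)).ker := by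
    intro u
    rw [MonoidHom.mem_ker, powMonoidHom_apply]
    apply Subtype.ext
    rw [Subgroup.coe_pow, Subgroup.coe_one]
    exact (mem_rootsOfUnity _ _).mp u.2
  refine Eq.trans (Nat.card_congr (β := ↥(rootsOfUnity p F)) ?_) hcard
  exact
    { toFun := fun x => ⟨((x.1 : ↥(sUnits F S)) : Fˣ), h1 x⟩
      invFun := fun u => ⟨⟨(u : Fˣ), h2 u⟩, h3 u⟩
      left_inv := fun x => rfl
      right_inv := fun u => rfl }

/-- The relative index of `E_S ^ p` in `E_S` is the index of the range of the `p`-th power map. -/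
lemma sUnitRank_relIndex_eq (S : Set (HeightOneSpectrum (𝓞 F))) (p : ℕ) :
    (sUnitsPow F p S).relIndex (sUnits F S) =
      (powMonoidHom p : ↥(sUnits F S) →* ↥(sUnits F S)).range.index := by
  rw [Subgroup.relIndex]
  congr 1
  ext x
  rw [Subgroup.mem_subgroupOf, MonoidHom.mem_range]
  constructor
  · rintro ⟨y, hy, hyx⟩
    exact ⟨⟨y, hy⟩, Subtype.ext hyx⟩
  · rintro ⟨y, rfl⟩
    exact ⟨(y : Fˣ), y.2, rfl⟩

/-- A number field containing a primitive `p`-th root of unity, `p > 2`, has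
`[F : ℚ] / 2` infinite places. -/
lemma sUnitRank_card_infinitePlace {p : ℕ} (hp : 2 < p) {ζ : F} (hζ : IsPrimitiveRoot ζ p) :
    Nat.card (InfinitePlace F) = finrank ℚ F / 2 := by
  have h0 := NumberField.InfinitePlace.IsPrimitiveRoot.nrRealPlaces_eq_zero_of_two_lt hp hζ
  have h1 := InfinitePlace.card_add_two_mul_card_eq_rank F
  have h2 := InfinitePlace.card_eq_nrRealPlaces_add_nrComplexPlaces F
  rw [Nat.card_eq_fintype_card, h2, h0, zero_add]
  rw [h0, zero_add] at h1
  omega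

end NumberField

/-- **WP1 (`S`-unit theorem modulo `p`)**: `|E_S / E_S ^ p| = p ^ (r₂ + |S|)`. -/
theorem sUnitRank : SUnitRank := by
  intro p F _ _ ζ S hp hp2 hζ
  have : Fact p.Prime := ⟨hp⟩
  obtain ⟨hfin, hrank⟩ := sUnitRankZ F (S : Set (HeightOneSpectrum (𝓞 F))) S.finite_toSet
  have hp3 : 2 < p := lt_of_le_of_ne hp.two_le (Ne.symm hp2)
  rw [sUnitRank_relIndex_eq, sUnitRank_index_range_pow p, sUnitRank_card_ker _ hp.ne_zero hζ,
    ← pow_succ]
  congr 1
  rw [sUnitRank_card_infinitePlace hp3 hζ, Set.ncard_coe_finset] at hrank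
  exact hrank

end Fermat.Agent.S14SI
end MergeWrap_S14_SI_SUnitRank

section MergeWrap_S14_SI_Final -- from S14/SI/Final.lean

/-!
# S14 / H2 Route I (algebraic): wiring

All work packages of Route I are proved; this file wires them together.  The results are the
Kummer-theoretic core of class field theory modulo `p` at finite level, for a number field `F`
containing a primitive `p`-th root of unity (`p` odd):

* `tameFirstIneq` : the tame first inequality;
* `keyLemmaSI` : an `(S ∪ T)`-unit which is a local `p`-th power at all primes of `S` is a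
  `p`-th power (`S ⊇ {v ∣ p}` generating the class group, `E_S → ∏_T k_v^× / p` surjective);
* `kummerNonSplit`, `chooseTSI`, `thetaCountSI` : auxiliary primes and the index computation;
* `mainThmSI`, `secondIneqKummer_routeI` : the second inequality (Kummer case), algebraically.
-/

set_option autoImplicit false

namespace Fermat.Agent.S14SI

/-- The tame first inequality. -/
theorem tameFirstIneq : TameFirstIneq :=
  tameFirstIneq_of tameHerbrand_uncond tameH1 kummerUnram (tameNonNorm_of localNormProper)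

/-- The key lemma. -/
theorem keyLemmaSI : KeyLemma :=
  keyLemma tameFirstIneq kummerSplits

/-- Primes with prescribed Kummer behaviour. -/
theorem kummerNonSplit : KummerNonSplit :=
  kummerNonSplit_of_kummerSplits kummerSplits

/-- The choice of the auxiliary set `T`. -/
theorem chooseTSI : ChooseT :=
  chooseT sUnitRank kummerNonSplit localCyclic

/-- The index computation. -/
theorem thetaCountSI : ThetaCount :=
  thetaCount sUnitRank localCount

/-- The main theorem of Route I. -/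
theorem mainThmSI : MainThm :=
  mainThm_of existsGoodS chooseTSI keyLemmaSI thetaCountSI

/-- The second inequality, Kummer case, by the algebraic route. -/
theorem secondIneqKummer_routeI : Fermat.Agent.S14.SecondIneqKummer :=
  secondIneqKummer_of mainThmSI kummerSplits splitNormClass

end Fermat.Agent.S14SI
end MergeWrap_S14_SI_Final

section MergeWrap_F4_Kum_Inert -- from F4/Kum/Inert.lean

/-!
# F4 / GLOB / KUM: primes at which a non-`p`-th power is not a `p`-th power residue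

From the Frobenius density theorem for cyclic extensions (`S14SI.inertPrimeExists`) and the
split lemma (`S14SI.kummerSplits`).
-/

set_option autoImplicit false

open NumberField IsDedekindDomain

namespace Fermat.Agent.F4Kum

open Fermat.Agent.S14SI

/-- If `x ∈ F` is not a `p`-th power (`μ_p ⊆ F`), there is a prime `v ∤ p` outside any given finite
set at which `x` is a unit and not a `p`-th power residue. -/
theorem exists_not_isPowMod_of_not_pow {p : ℕ} {F : Type} [Field F] [NumberField F] {ζ : F}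
    (hp : p.Prime) (hζ : IsPrimitiveRoot ζ p) {x : F} (hx0 : x ≠ 0) (hx : ∀ b : F, b ^ p ≠ x)
    (B : Finset (HeightOneSpectrum (𝓞 F))) :
    ∃ v : HeightOneSpectrum (𝓞 F), v ∉ B ∧ (p : 𝓞 F) ∉ v.asIdeal ∧ v.valuation F x = 1 ∧
      ¬ IsPowMod F v p x := by
  classical
  obtain ⟨M, _, _, _, _, α, hfinM, hα, hαF⟩ := exists_kummer_extension hp hζ hx
  set Bad : Finset (HeightOneSpectrum (𝓞 F)) :=
    B ∪ (finite_setOf_valuation_ne_one' F hx0).toFinset with hBad
  set B' : Finset ℕ :=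
    insert p (Bad.biUnion fun w => (Ideal.absNorm w.asIdeal).primeFactors) with hB'
  obtain ⟨q, 𝔮, hq, hqB', hN, hf⟩ := inertPrimeExists p F M hp hfinM B'
  have h𝔮prime : 𝔮.IsPrime := Fermat.Agent.FrobDensity.isPrime_of_absNorm_eq_prime hq hN
  have h𝔮bot : 𝔮 ≠ ⊥ := by
    rintro rfl
    rw [Ideal.absNorm_bot] at hN
    exact hq.ne_zero hN.symm
  set v : HeightOneSpectrum (𝓞 F) := ⟨𝔮, h𝔮prime, h𝔮bot⟩ with hv
  have hvBad : v ∉ Bad := by
    intro hvmem
    apply hqB'
    refine Finset.mem_insert_of_mem (Finset.mem_biUnion.mpr ⟨v, hvmem, ?_⟩)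
    change q ∈ (Ideal.absNorm 𝔮).primeFactors
    rw [hN]
    exact Nat.mem_primeFactors.mpr ⟨hq, dvd_rfl, hq.ne_zero⟩
  have hqp : q ≠ p := fun h => hqB' (h ▸ Finset.mem_insert_self _ _)
  have hpv : (p : 𝓞 F) ∉ v.asIdeal :=
    natCast_notMem_of_prime_ne h𝔮prime.ne_top hp hq hqp
      (Fermat.Agent.FrobDensity.natCast_mem_of_absNorm_eq hN)
  have hvx : v.valuation F x = 1 := by
    by_contra h
    apply hvBad
    rw [hBad]
    exact Finset.mem_union_right _ ((Set.Finite.mem_toFinset _).mpr h)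
  refine ⟨v, fun hvB => hvBad (Finset.mem_union_left _ hvB), hpv, hvx, ?_⟩
  intro hpm
  have hloc : IsLocalPow F v p ζ x := hpm.isLocalPow hζ hp.one_lt hpv
  have hsplit := kummerSplits p F M ζ x α v hp hζ hfinM hα hαF hloc
  rw [SplitsCompletely, hfinM] at hsplit
  have hcount := Ideal.ncard_primesOver_mul_ramificationIdxIn_mul_inertiaDegIn 𝔮 (𝓞 M)
    Gal(M/F)
  rw [IsGalois.card_aut_eq_finrank, hfinM, hf] at hcount
  change (v.asIdeal.primesOver (𝓞 M)).ncard * _ = p at hcount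
  rw [hsplit] at hcount
  have hp1 : 1 < p := hp.one_lt
  have h3 : 𝔮.ramificationIdxIn (𝓞 M) * p = 1 := by
    have hp0 : 0 < p := hp.pos
    exact Nat.eq_of_mul_eq_mul_left hp0 (by rw [mul_one]; exact hcount)
  have h4 : p ∣ 1 := ⟨𝔮.ramificationIdxIn (𝓞 M), by rw [mul_comm]; exact h3.symm⟩
  exact absurd (Nat.le_of_dvd one_pos h4) (not_le.mpr hp1)

end Fermat.Agent.F4Kum
end MergeWrap_F4_Kum_Inert

section MergeWrap_F4_Kum_Level -- from F4/Kum/Level.lean

/-!
# F4 / GLOB / KUM (K4): the right kernel of the pairing at a level generating the class group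

`levelOrth : Rec1 → LevelOrth`.  Counting: `[Fˣ : E_S U_S] ≤ [E_S : E_S ^ p]` by the `S`-unit
theorem, the local counts and the key lemma of Route I (`E_S ∩ U_S = E_S ^ p`); the pairing
`E_S / p × Fˣ / E_S U_S → μ_p` is well defined by `Rec1` and left-nondegenerate by the existence
of non-residue primes; then `Dual.lean`.
-/

set_option autoImplicit false

open NumberField IsDedekindDomain

namespace Fermat.Agent.F4Kum

open Fermat.Agent.S14SI

variable {F : Type} [Field F] [NumberField F]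

/-- `p`-th powers are local `p`-th powers. -/
lemma pow_mem_localPowSubgroup {p : ℕ} {ζ : F} (hζ : IsPrimitiveRoot ζ p) (hp : 1 < p)
    (S : Finset (HeightOneSpectrum (𝓞 F))) (b : Fˣ) :
    b ^ p ∈ localPowSubgroup F p ζ hζ hp S := by
  intro v _
  refine ⟨((b⁻¹ : Fˣ) : F), Units.ne_zero _, ?_⟩
  have e : ((b ^ p : Fˣ) : F) * ((b⁻¹ : Fˣ) : F) ^ p - 1 = 0 := by
    rw [← Units.val_pow_eq_pow_val, ← Units.val_mul, ← mul_pow, mul_inv_cancel, one_pow,
      Units.val_one, sub_self]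
  rw [e, map_zero]
  exact pow_pos ((Valuation.pos_iff _).mpr (sub_ne_zero.mpr (hζ.ne_one hp))) p

/-- An element of `F` whose `p`-th power is an `S`-unit is an `S`-unit. -/
lemma mem_sUnits_of_pow {p : ℕ} (hp : p ≠ 0) (S : Set (HeightOneSpectrum (𝓞 F))) {y : Fˣ}
    (h : y ^ p ∈ sUnits F S) : y ∈ sUnits F S := by
  rw [mem_sUnits] at h ⊢
  intro v hv
  have h1 := h v hv
  rw [← thetaOrd_eq_zero_iff] at h1 ⊢
  rw [thetaOrd_pow] at h1
  rcases mul_eq_zero.mp h1 with h2 | h2
  · exact absurd (by exact_mod_cast h2) hp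
  · exact h2

/-- The key lemma of Route I for `T = ∅`: `E_S ∩ U_S ≤ E_S ^ p` when `S ⊇ {v ∣ p}` generates the
class group. -/
lemma inf_le_sUnitsPow {p : ℕ} {ζ : F} (hp : p.Prime) (hp2 : p ≠ 2) (hζ : IsPrimitiveRoot ζ p)
    {S : Finset (HeightOneSpectrum (𝓞 F))} (hS : ContainsPrimesAbove F p S)
    (hgen : GeneratesClassGroup F S) :
    localPowSubgroup F p ζ hζ hp.one_lt S ⊓ sUnits F (S : Set (HeightOneSpectrum (𝓞 F)))
      ≤ sUnitsPow F p (S : Set (HeightOneSpectrum (𝓞 F))) := by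
  classical
  rintro x ⟨hxU, hxE⟩
  have hres : ResidueSurjective F p S ∅ := by
    intro c _
    exact ⟨1, Subgroup.one_mem _, fun v hv => absurd hv (Finset.notMem_empty v)⟩
  have hxE' : x ∈ sUnits F ((S : Set (HeightOneSpectrum (𝓞 F))) ∪
      ((∅ : Finset (HeightOneSpectrum (𝓞 F))) : Set (HeightOneSpectrum (𝓞 F)))) := by
    rw [Finset.coe_empty, Set.union_empty]
    exact hxE
  obtain ⟨y, hy⟩ := keyLemmaSI p F ζ x S ∅ hp hp2 hζ hS hgen (Finset.disjoint_empty_right S) hres
    hxE' hxU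
  have hy0 : y ≠ 0 := by
    rintro rfl
    rw [zero_pow hp.ne_zero] at hy
    exact x.ne_zero hy.symm
  have hxy : x = (Units.mk0 y hy0) ^ p := by
    apply Units.ext
    simp [hy]
  refine ⟨Units.mk0 y hy0, ?_, hxy.symm⟩
  exact mem_sUnits_of_pow hp.ne_zero _ (hxy ▸ hxE)

/-- The index of the `p`-th powers in the group of `S`-units (as a type). -/
lemma index_range_pow_sUnits (p : ℕ) (S : Set (HeightOneSpectrum (𝓞 F))) :
    (powMonoidHom p : ↥(sUnits F S) →* ↥(sUnits F S)).range.index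
      = (sUnitsPow F p S).relIndex (sUnits F S) := by
  rw [Subgroup.relIndex]
  congr 1
  ext x
  simp only [MonoidHom.mem_range, powMonoidHom_apply, Subgroup.mem_subgroupOf, Subgroup.mem_map]
  constructor
  · rintro ⟨y, rfl⟩
    exact ⟨(y : Fˣ), y.2, by simp⟩
  · rintro ⟨y, hy, hyx⟩
    exact ⟨⟨y, hy⟩, Subtype.ext (by simpa using hyx)⟩

/-- The index computation: `[Fˣ : E_S U_S] ≤ [E_S : E_S ^ p]`. -/
lemma index_sup_le {p : ℕ} {ζ : F} (hp : p.Prime) (hp2 : p ≠ 2) (hζ : IsPrimitiveRoot ζ p)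
    {S : Finset (HeightOneSpectrum (𝓞 F))} (hS : ContainsPrimesAbove F p S)
    (hgen : GeneratesClassGroup F S) :
    (sUnits F (S : Set (HeightOneSpectrum (𝓞 F))) ⊔ localPowSubgroup F p ζ hζ hp.one_lt S).index
        ≠ 0 ∧
    (sUnits F (S : Set (HeightOneSpectrum (𝓞 F))) ⊔ localPowSubgroup F p ζ hζ hp.one_lt S).index
      ≤ (sUnitsPow F p (S : Set (HeightOneSpectrum (𝓞 F)))).relIndex
          (sUnits F (S : Set (HeightOneSpectrum (𝓞 F)))) := by
  classical
  set U : Subgroup Fˣ := localPowSubgroup F p ζ hζ hp.one_lt S with hU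
  set E : Subgroup Fˣ := sUnits F (S : Set (HeightOneSpectrum (𝓞 F))) with hE
  obtain ⟨hU0, hUle⟩ := localCount p F ζ S hp hζ
  have hrank := sUnitRank p F ζ S hp hp2 hζ
  have hUE : U ⊓ E ≤ sUnitsPow F p (S : Set (HeightOneSpectrum (𝓞 F))) :=
    inf_le_sUnitsPow hp hp2 hζ hS hgen
  have hmul : U.relIndex (E ⊔ U) * (E ⊔ U).index = U.index :=
    Subgroup.relIndex_mul_index le_sup_right
  have hrel : U.relIndex (E ⊔ U) = U.relIndex E := Subgroup.relIndex_sup_right E U
  have hdvd : p ^ (Module.finrank ℚ F / 2 + S.card) ∣ U.relIndex E := by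
    rw [← hrank, ← Subgroup.inf_relIndex_right U E]
    exact Subgroup.relIndex_dvd_of_le_left E hUE
  have heven := even_finrank_of_isPrimitiveRoot hp hp2 hζ
  have hm0 : (E ⊔ U).index ≠ 0 := by
    intro h
    rw [h, mul_zero] at hmul
    exact hU0 hmul.symm
  have hr0 : U.relIndex E ≠ 0 := by
    intro h
    rw [hrel, h, zero_mul] at hmul
    exact hU0 hmul.symm
  refine ⟨hm0, ?_⟩
  rw [hrank]
  obtain ⟨k, hk⟩ := hdvd
  have hk0 : 0 < k := by
    rcases Nat.eq_zero_or_pos k with h | h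
    · rw [h, mul_zero] at hk
      exact absurd hk hr0
    · exact h
  set e := Module.finrank ℚ F / 2 + S.card with he
  have hexp : 2 * S.card + Module.finrank ℚ F = e + e := by
    obtain ⟨c, hc⟩ := heven
    rw [hc] at he ⊢
    rw [Nat.mul_div_cancel_left _ (by norm_num : 0 < 2)] at he
    omega
  have h3 : p ^ e * (E ⊔ U).index ≤ p ^ e * p ^ e := by
    calc p ^ e * (E ⊔ U).index ≤ (p ^ e * k) * (E ⊔ U).index := by
          apply Nat.mul_le_mul_right
          exact Nat.le_mul_of_pos_right _ hk0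
      _ = U.index := by rw [← hk, ← hrel, hmul]
      _ ≤ p ^ (2 * S.card + Module.finrank ℚ F) := hUle
      _ = p ^ e * p ^ e := by rw [hexp, pow_add]
  exact Nat.le_of_mul_le_mul_left h3 (pow_pos hp.pos e)

/-- An element with a simple pole/zero at `v₁ ∉ S` and no other zero or pole outside `S`, when
`S` generates the class group. -/
lemma exists_thetaOrd_single_away {S : Finset (HeightOneSpectrum (𝓞 F))}
    (hgen : GeneratesClassGroup F S) {v₁ : HeightOneSpectrum (𝓞 F)} (hv₁ : v₁ ∉ S) :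
    ∃ c : Fˣ, thetaOrd v₁ c = -1 ∧ ∀ v, v ∉ S → v ≠ v₁ → thetaOrd v c = 0 := by
  classical
  have hgen' : Subgroup.closure ((fun v : HeightOneSpectrum (𝓞 F) =>
      ClassGroup.mk0 ⟨v.asIdeal, mem_nonZeroDivisors_of_ne_zero v.ne_bot⟩) ''
        (S : Set (HeightOneSpectrum (𝓞 F)))) = ⊤ := hgen
  obtain ⟨c, hc⟩ := exists_valuation_eq_of_closure_eq_top (K := F) hgen'
    (Finsupp.single v₁ 1)
  refine ⟨c, ?_, ?_⟩
  · apply thetaOrd_eq_of_valuation
    rw [hc v₁ (by simpa using hv₁)]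
    simp
  · intro v hv hne
    apply thetaOrd_eq_of_valuation
    rw [hc v (by simpa using hv)]
    simp [Ne.symm hne]

/-- **K4**: the right kernel of the pairing at a level generating the class group. -/
theorem levelOrth (hR : Rec1) : LevelOrth := by
  intro p F _ _ ζ S a hp hp2 hζ hS hgen ha
  classical
  set E : Subgroup Fˣ := sUnits F (S : Set (HeightOneSpectrum (𝓞 F))) with hE
  set U : Subgroup Fˣ := localPowSubgroup F p ζ hζ hp.one_lt S with hU
  -- the pairing as a bihomomorphism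
  let β : ↥E →* Fˣ →* Fˣ := MonoidHom.mk' (fun ε => kumPairingHom p S (((ε : Fˣ) : F)))
    (fun x y => by
      refine MonoidHom.ext fun b => ?_
      show kumPairing p S (((x * y : ↥E) : Fˣ) : F) b
        = kumPairing p S ((x : Fˣ) : F) b * kumPairing p S ((y : Fˣ) : F) b
      rw [Subgroup.coe_mul, Units.val_mul]
      exact kumPairing_mul_left symbMul hp hζ hS x.2 y.2 b)
  have hβ : ∀ (ε : ↥E) (b : Fˣ), β ε b = kumPairing p S ((ε : Fˣ) : F) b := fun _ _ => rfl
  obtain ⟨hH0, hHle⟩ := index_sup_le hp hp2 hζ hS hgen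
  have hmem : a ∈ E ⊔ U := by
    refine mem_of_orthogonal (M := F) hp hζ (powMonoidHom p : ↥E →* ↥E).range (E ⊔ U) β hH0
      ?_ ?_ ?_ ?_ ?_ a ?_
    · rw [index_range_pow_sUnits]
      exact hHle
    · intro b
      exact (le_sup_right : U ≤ E ⊔ U) (pow_mem_localPowSubgroup hζ hp.one_lt S b)
    · intro x h hh
      have hle : E ⊔ U ≤ (β x).ker := by
        refine sup_le ?_ ?_
        · intro e he
          rw [MonoidHom.mem_ker, hβ]
          exact kumPairing_eq_one_of_mem_sUnits p S _ he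
        · intro u hu
          rw [MonoidHom.mem_ker, hβ]
          refine hR p F ζ S x u hp hp2 hζ hS ?_ ?_ hu
          · intro v hv
            have : thetaOrd v (x : Fˣ) = 0 := by
              rw [thetaOrd_eq_zero_iff]
              exact (mem_sUnits _ _).mp x.2 v (by simpa using hv)
            rw [this]
            exact dvd_zero _
          · intro v hv _
            rw [thetaOrd_eq_zero_iff]
            exact (mem_sUnits _ _).mp x.2 v (by simpa using hv)
      exact MonoidHom.mem_ker.mp (hle hh)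
    · rintro x ⟨y, rfl⟩ b
      rw [powMonoidHom_apply, map_pow, MonoidHom.pow_apply, hβ]
      exact kumPairing_pow p S _ b
    · intro x hx
      -- `x` is a `p`-th power in `F`
      have hpow : ∃ y : F, y ^ p = ((x : Fˣ) : F) := by
        by_contra hne
        obtain ⟨v, hvS, hpv, hvx, hnp⟩ := exists_not_isPowMod_of_not_pow hp hζ
          (x : Fˣ).ne_zero (fun b hb => hne ⟨b, hb⟩) S
        obtain ⟨c, hc1, hc⟩ := exists_thetaOrd_single_away hgen hvS
        have h1 := hx c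
        rw [hβ, kumPairing_eq_prod p S {v} _ c (by simpa using hvS)
          (fun w hwS hwv => hc w hwS (by simpa using hwv)), Finset.prod_singleton, hc1,
          zpow_neg, zpow_one, inv_eq_one] at h1
        exact hnp ((symbEuler p F ζ _ v hp hζ hpv hvx).mp h1)
      obtain ⟨y, hy⟩ := hpow
      have hy0 : y ≠ 0 := by
        rintro rfl
        rw [zero_pow hp.ne_zero] at hy
        exact (x : Fˣ).ne_zero hy.symm
      have hxy : (x : Fˣ) = (Units.mk0 y hy0) ^ p := by
        apply Units.ext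
        simp [hy]
      have hyE : Units.mk0 y hy0 ∈ E := mem_sUnits_of_pow hp.ne_zero _ (hxy ▸ x.2)
      refine ⟨⟨Units.mk0 y hy0, hyE⟩, ?_⟩
      apply Subtype.ext
      rw [powMonoidHom_apply, Subgroup.coe_pow]
      exact hxy.symm
    · intro x
      rw [hβ]
      exact ha x x.2
  obtain ⟨e, he, u, hu, heu⟩ := Subgroup.mem_sup.mp hmem
  exact ⟨e, u, he, hu, heu.symm⟩

end Fermat.Agent.F4Kum
end MergeWrap_F4_Kum_Level
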