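import Fermat.Agent.MU.F4.Kum.RecInterface
import Fermat.Agent.MU.F4.Kum.Symbol
import Fermat.Agent.MU.S14.SI.KummerSplits
import Fermat.Agent.MU.F4.Kum.Pairing
import Fermat.Agent.MU.S17.W.Final

section MergeWrap_F4_Kum_RecFrob -- from F4/Kum/RecFrob.lean

/-!
# F4 / GLOB / KUM, work package RK: Frobenius elements and inertia in Kummer extensions

`M/F` Galois of prime degree `p`, `ζ_p ∈ F`, `γ ∈ M` with `γ ^ p = u ∈ F`, `u` a unit at the
prime `v ∤ p` of `F`, `Q` a prime of `M` above `v`.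

* `rk_exists_frob` : existence of a Frobenius element at `Q`;
* `rk_symb_of_frob` : if `σ` is a Frobenius element at `Q` and `σ γ = ω γ` then `ω = (u / v)_p`;
* `rk_one_of_inertia` : if `σ` is in the inertia group of `Q` and `σ γ = ω γ` then `ω = 1`.
-/

set_option autoImplicit false
set_option linter.unusedSectionVars false

open NumberField IsDedekindDomain

namespace Fermat.Agent.F4Kum

open Fermat.Agent.S14SI Fermat.Agent.F4Rec
open Fermat.Agent.S14 (InInertia)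

section general

variable {F M : Type} [Field F] [NumberField F] [Field M] [NumberField M] [Algebra F M]

/-- Existence of a Frobenius element at a prime `Q` of `M`. -/
theorem rk_exists_frob [IsGalois F M] (Q : Ideal (𝓞 M)) (hQ : Q.IsPrime) (hQ0 : Q ≠ ⊥) :
    ∃ σ : M ≃ₐ[F] M, IsFrobRel σ Q (Ideal.absNorm (Q.under (𝓞 F))) := by
  have : Finite (𝓞 M ⧸ Q) := Ideal.finiteQuotientOfFreeOfNeBot Q hQ0
  obtain ⟨σ, hσ⟩ := IsArithFrobAt.exists_of_isInvariant (𝓞 F) (M ≃ₐ[F] M) Q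
  refine ⟨σ, fun x => ?_⟩
  have h := hσ x
  have hcard : Nat.card (𝓞 F ⧸ Q.under (𝓞 F)) = Ideal.absNorm (Q.under (𝓞 F)) := by
    rw [Ideal.absNorm_apply, Submodule.cardQuot_apply]
  rw [hcard] at h
  exact ⟨_, h, rfl⟩

/-- A `p`-th root of unity of `F`, as an integer. -/
lemma rk_root_int {p : ℕ} (hp : p ≠ 0) {ω : Fˣ} (hω : ω ^ p = 1) :
    ∃ w : 𝓞 F, (w : F) = (ω : F) := by
  have h1 : IsIntegral ℤ ((ω : F) ^ p) := by
    rw [← Units.val_pow_eq_pow_val, hω, Units.val_one]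
    exact isIntegral_one
  have h2 : IsIntegral ℤ (ω : F) := IsIntegral.of_pow (Nat.pos_of_ne_zero hp) h1
  exact ⟨⟨(ω : F), h2⟩, rfl⟩

/-- The core congruence: if `t * β ∈ Q` with `t ∈ 𝓞 F` and `β ∉ Q` then `t ∈ Q ∩ 𝓞 F`. -/
lemma rk_core (v : HeightOneSpectrum (𝓞 F)) (Q : Ideal (𝓞 M)) (hQ : Q.IsPrime)
    (hQv : Q.under (𝓞 F) = v.asIdeal) (β : 𝓞 M) (hβQ : β ∉ Q) (t : 𝓞 F) (y : 𝓞 M) (hy : y ∈ Q)
    (h : algebraMap F M (t : F) * (β : M) = (y : M)) : t ∈ v.asIdeal := by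
  have h1 : algebraMap (𝓞 F) (𝓞 M) t * β = y := by
    apply RingOfIntegers.ext
    rw [← h]
    rfl
  have h2 : algebraMap (𝓞 F) (𝓞 M) t * β ∈ Q := h1 ▸ hy
  rcases hQ.mem_or_mem h2 with h3 | h3
  · rw [← hQv, Ideal.under_def, Ideal.mem_comap]
    exact h3
  · exact absurd h3 hβQ

/-- If `β ^ p = c` with `c ∉ v` then `β ∉ Q`. -/
lemma rk_notMem (v : HeightOneSpectrum (𝓞 F)) (Q : Ideal (𝓞 M))
    (hQv : Q.under (𝓞 F) = v.asIdeal) {p : ℕ} (hp : p ≠ 0) (β : 𝓞 M) (c : 𝓞 F)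
    (hc : c ∉ v.asIdeal) (hβ : (β : M) ^ p = algebraMap F M (c : F)) : β ∉ Q := by
  intro hβQ
  apply hc
  have h1 : β ^ p = algebraMap (𝓞 F) (𝓞 M) c := by
    apply RingOfIntegers.ext
    show (β : M) ^ p = algebraMap F M (c : F)
    exact hβ
  have h2 : algebraMap (𝓞 F) (𝓞 M) c ∈ Q := by
    rw [← h1]
    exact Ideal.pow_mem_of_mem Q hβQ p (Nat.pos_of_ne_zero hp)
  rw [← hQv, Ideal.under_def, Ideal.mem_comap]
  exact h2

/-- **Dictionary, integral form**: if `σ` is a Frobenius element at `Q ∣ v`, `β ^ p = c ∉ v` and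
`σ β = ω β` then `(c / v)_p = ω`. -/
theorem rk_symb_of_frob_int {p : ℕ} (hp : p.Prime) {ζ : F} (hζ : IsPrimitiveRoot ζ p)
    (v : HeightOneSpectrum (𝓞 F)) (hv : (p : 𝓞 F) ∉ v.asIdeal)
    (Q : Ideal (𝓞 M)) (hQ : Q.IsPrime) (hQv : Q.under (𝓞 F) = v.asIdeal)
    (σ : M ≃ₐ[F] M) (hσ : IsFrobRel σ Q (Ideal.absNorm v.asIdeal))
    (β : 𝓞 M) (c : 𝓞 F) (hc : c ∉ v.asIdeal) (hβ : (β : M) ^ p = algebraMap F M (c : F))
    (ω : Fˣ) (hω : ω ^ p = 1) (hσβ : σ (β : M) = algebraMap F M (ω : F) * (β : M)) :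
    powSymb p v (c : F) = ω := by
  have hβQ : β ∉ Q := rk_notMem v Q hQv hp.ne_zero β c hc hβ
  obtain ⟨w, hw⟩ := rk_root_int hp.ne_zero hω
  obtain ⟨y, hyQ, hy⟩ := hσ β
  obtain ⟨hnp, -⟩ := symb_exp_mul v hp hζ hv
  have hN : 1 ≤ Ideal.absNorm v.asIdeal := by
    rw [Nat.one_le_iff_ne_zero]
    intro h0
    rw [Ideal.absNorm_eq_zero_iff] at h0
    exact v.ne_bot h0
  have hN' : Ideal.absNorm v.asIdeal = symbExp p v * p + 1 := by omega
  have hpow : (β : M) ^ Ideal.absNorm v.asIdeal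
      = algebraMap F M ((c : F) ^ symbExp p v) * (β : M) := by
    rw [hN', pow_succ, mul_comm (symbExp p v) p, pow_mul, hβ, map_pow]
  have hcv : v.valuation F (c : F) = 1 := (v.valuation_eq_one_iff_notMem).mpr hc
  refine powSymb_eq_of v hp hζ hv hcv hω ?_
  rw [Valuation.map_sub_swap]
  have e1 : ((w - c ^ symbExp p v : 𝓞 F) : F) = (ω : F) - (c : F) ^ symbExp p v := by
    rw [← hw]
    push_cast
    rfl
  have key : w - c ^ symbExp p v ∈ v.asIdeal := by
    refine rk_core v Q hQ hQv β hβQ (w - c ^ symbExp p v) y hyQ ?_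
    rw [← hy, hσβ, hpow, e1, map_sub, sub_mul]
  have h3 : v.valuation F ((w - c ^ symbExp p v : 𝓞 F) : F) < 1 :=
    (v.valuation_lt_one_iff_mem (K := F) _).mpr key
  rwa [e1] at h3

/-- **Inertia, integral form**: if `σ` is in the inertia group of `Q ∣ v`, `β ^ p = c ∉ v` and
`σ β = ω β` then `ω = 1`. -/
theorem rk_one_of_inertia_int {p : ℕ} (hp : p.Prime) {ζ : F} (hζ : IsPrimitiveRoot ζ p)
    (v : HeightOneSpectrum (𝓞 F)) (hv : (p : 𝓞 F) ∉ v.asIdeal)
    (Q : Ideal (𝓞 M)) (hQ : Q.IsPrime) (hQv : Q.under (𝓞 F) = v.asIdeal)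
    (σ : M ≃ₐ[F] M) (hσ : InInertia σ Q)
    (β : 𝓞 M) (c : 𝓞 F) (hc : c ∉ v.asIdeal) (hβ : (β : M) ^ p = algebraMap F M (c : F))
    (ω : Fˣ) (hω : ω ^ p = 1) (hσβ : σ (β : M) = algebraMap F M (ω : F) * (β : M)) :
    ω = 1 := by
  have hβQ : β ∉ Q := rk_notMem v Q hQv hp.ne_zero β c hc hβ
  obtain ⟨w, hw⟩ := rk_root_int hp.ne_zero hω
  obtain ⟨y, hyQ, hy⟩ := hσ β
  refine symb_root_unique v hp hζ hv hω (one_pow p) ?_
  have e1 : ((w - 1 : 𝓞 F) : F) = (ω : F) - ((1 : Fˣ) : F) := by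
    rw [← hw, Units.val_one]
    push_cast
    rfl
  have key : w - 1 ∈ v.asIdeal := by
    refine rk_core v Q hQ hQv β hβQ (w - 1) y hyQ ?_
    rw [← hy, hσβ, e1, Units.val_one, map_sub, sub_mul, map_one, one_mul]
  have h3 : v.valuation F ((w - 1 : 𝓞 F) : F) < 1 :=
    (v.valuation_lt_one_iff_mem (K := F) _).mpr key
  rwa [e1] at h3

/-- Clearing denominators: for `γ ^ p = u`, `u` a `v`-unit, there are `d ∈ 𝓞 F ∖ v`, `β ∈ 𝓞 M`,
`c ∈ 𝓞 F ∖ v` with `β = γ d`, `c = u d ^ p`. -/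
lemma rk_clear {p : ℕ} (hp : p ≠ 0) (v : HeightOneSpectrum (𝓞 F)) {u : F}
    (hu : v.valuation F u = 1) (γ : M) (hγ : γ ^ p = algebraMap F M u) :
    ∃ (d : 𝓞 F) (β : 𝓞 M) (c : 𝓞 F), d ∉ v.asIdeal ∧ c ∉ v.asIdeal ∧
      (β : M) = γ * algebraMap F M (d : F) ∧ (c : F) = u * (d : F) ^ p := by
  obtain ⟨n, ⟨d, hd⟩, h⟩ := v.exists_primeCompl_mul_eq_of_integer (K := F) u hu.le
  have hd' : d ∉ v.asIdeal := hd
  have hdv : v.valuation F (d : F) = 1 := (v.valuation_eq_one_iff_notMem).mpr hd'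
  have h' : u * (d : F) = (n : F) := h
  obtain ⟨q, rfl⟩ : ∃ q, p = q + 1 := Nat.exists_eq_succ_of_ne_zero hp
  have hc : ((n * d ^ q : 𝓞 F) : F) = u * (d : F) ^ (q + 1) := by
    have : ((n * d ^ q : 𝓞 F) : F) = (n : F) * (d : F) ^ q := by
      push_cast
      rfl
    rw [this, ← h', pow_succ]
    ring
  have hcv : v.valuation F ((n * d ^ q : 𝓞 F) : F) = 1 := by
    rw [hc, map_mul, map_pow, hu, hdv, one_pow, one_mul]
  have hint : IsIntegral ℤ (γ * algebraMap F M (d : F)) := by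
    refine IsIntegral.of_pow (Nat.succ_pos q) ?_
    rw [mul_pow, hγ, ← map_pow, ← map_mul, ← hc]
    have h1 : IsIntegral ℤ ((n * d ^ q : 𝓞 F) : F) := RingOfIntegers.isIntegral_coe _
    exact h1.map (IsScalarTower.toAlgHom ℤ F M)
  exact ⟨d, ⟨_, hint⟩, n * d ^ q, hd', (v.valuation_eq_one_iff_notMem).mp hcv, rfl, hc⟩

/-- The symbol of `u * d ^ p`. -/
lemma rk_powSymb_mul_pow {p : ℕ} (hp : p.Prime) {ζ : F} (hζ : IsPrimitiveRoot ζ p)
    (v : HeightOneSpectrum (𝓞 F)) (hv : (p : 𝓞 F) ∉ v.asIdeal) {u d : F}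
    (hu : v.valuation F u = 1) (hd : v.valuation F d = 1) :
    powSymb p v (u * d ^ p) = powSymb p v u := by
  have hdp : v.valuation F (d ^ p) = 1 := by rw [map_pow, hd, one_pow]
  rw [powSymb_mul v hp hζ hv hu hdp, powSymb_pow_nat v hp hζ hv hd, powSymb_pow, mul_one]

/-- **Dictionary**: if `σ` is a Frobenius element at `Q ∣ v`, `γ ^ p = u` a `v`-unit and
`σ γ = ω γ` then `(u / v)_p = ω`. -/
theorem rk_symb_of_frob {p : ℕ} (hp : p.Prime) {ζ : F} (hζ : IsPrimitiveRoot ζ p)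
    (v : HeightOneSpectrum (𝓞 F)) (hv : (p : 𝓞 F) ∉ v.asIdeal)
    (Q : Ideal (𝓞 M)) (hQ : Q.IsPrime) (hQv : Q.under (𝓞 F) = v.asIdeal)
    (σ : M ≃ₐ[F] M) (hσ : IsFrobRel σ Q (Ideal.absNorm v.asIdeal))
    {u : F} (hu : v.valuation F u = 1) (γ : M) (hγ : γ ^ p = algebraMap F M u)
    (ω : Fˣ) (hω : ω ^ p = 1) (hσγ : σ γ = algebraMap F M (ω : F) * γ) :
    powSymb p v u = ω := by
  obtain ⟨d, β, c, hd, hc, hβ, hcu⟩ := rk_clear hp.ne_zero v hu γ hγ
  have hdv : v.valuation F (d : F) = 1 := (v.valuation_eq_one_iff_notMem).mpr hd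
  have h1 : (β : M) ^ p = algebraMap F M (c : F) := by
    rw [hβ, mul_pow, hγ, hcu, map_mul, map_pow]
  have h2 : σ (β : M) = algebraMap F M (ω : F) * (β : M) := by
    rw [hβ, map_mul, hσγ, AlgEquiv.commutes, mul_assoc]
  have h3 := rk_symb_of_frob_int hp hζ v hv Q hQ hQv σ hσ β c hc h1 ω hω h2
  rw [hcu, rk_powSymb_mul_pow hp hζ v hv hu hdv] at h3
  exact h3

/-- **Inertia**: if `σ` is in the inertia group of `Q ∣ v`, `γ ^ p = u` a `v`-unit and
`σ γ = ω γ` then `ω = 1`. -/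
theorem rk_one_of_inertia {p : ℕ} (hp : p.Prime) {ζ : F} (hζ : IsPrimitiveRoot ζ p)
    (v : HeightOneSpectrum (𝓞 F)) (hv : (p : 𝓞 F) ∉ v.asIdeal)
    (Q : Ideal (𝓞 M)) (hQ : Q.IsPrime) (hQv : Q.under (𝓞 F) = v.asIdeal)
    (σ : M ≃ₐ[F] M) (hσ : InInertia σ Q)
    {u : F} (hu : v.valuation F u = 1) (γ : M) (hγ : γ ^ p = algebraMap F M u)
    (ω : Fˣ) (hω : ω ^ p = 1) (hσγ : σ γ = algebraMap F M (ω : F) * γ) :
    ω = 1 := by
  obtain ⟨d, β, c, hd, hc, hβ, hcu⟩ := rk_clear hp.ne_zero v hu γ hγ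
  have h1 : (β : M) ^ p = algebraMap F M (c : F) := by
    rw [hβ, mul_pow, hγ, hcu, map_mul, map_pow]
  have h2 : σ (β : M) = algebraMap F M (ω : F) * (β : M) := by
    rw [hβ, map_mul, hσγ, AlgEquiv.commutes, mul_assoc]
  exact rk_one_of_inertia_int hp hζ v hv Q hQ hQv σ hσ β c hc h1 ω hω h2

/-- An element of order divisible by `p` at `v` becomes a `v`-unit after multiplication by a
`p`-th power. -/
lemma rk_exists_unit_mul_pow {p : ℕ} (v : HeightOneSpectrum (𝓞 F)) (x : Fˣ)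
    (hx : (p : ℤ) ∣ thetaOrd v x) :
    ∃ y : Fˣ, v.valuation F ((x : F) * (y : F) ^ p) = 1 := by
  obtain ⟨m, hm⟩ := hx
  obtain ⟨π, hπ⟩ := v.valuation_exists_uniformizer F
  have hπ0 : π ≠ 0 := by
    intro h0
    rw [h0, map_zero] at hπ
    exact WithZero.exp_ne_zero hπ.symm
  refine ⟨(Units.mk0 π hπ0) ^ m, ?_⟩
  rw [map_mul, map_pow, thetaOrd_valuation, hm, Units.val_zpow_eq_zpow_val, map_zpow₀,
    Units.val_mk0, hπ, ← WithZero.exp_zsmul, ← WithZero.exp_nsmul, ← WithZero.exp_add]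
  rw [← WithZero.exp_zero]
  congr 1
  simp only [smul_eq_mul, nsmul_eq_mul]
  ring

end general

/-! ### The Kummer extension and its Kummer character -/

section kummer

open Polynomial

/-- **The Kummer extension as a package**, with the splitting field property. -/
theorem rk_exists_kummer {F : Type} [Field F] [NumberField F] {p : ℕ} (hp : p.Prime) {ζ : F}
    (hζ : IsPrimitiveRoot ζ p) {a : F} (ha : ∀ b : F, b ^ p ≠ a) :
    ∃ (M : Type) (_ : Field M) (_ : NumberField M) (_ : Algebra F M) (_ : IsGalois F M)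
      (_ : IsSplittingField F M (X ^ p - C a)) (α : M),
      Module.finrank F M = p ∧ α ^ p = algebraMap F M a := by
  have H : Irreducible (X ^ p - C a : F[X]) := X_pow_sub_C_irreducible_of_prime hp ha
  have hfact : Fact (Irreducible (X ^ p - C a : F[X])) := ⟨H⟩
  have hprim : (primitiveRoots p F).Nonempty :=
    ⟨ζ, (mem_primitiveRoots hp.pos).mpr hζ⟩
  have hsplit := isSplittingField_AdjoinRoot_X_pow_sub_C hprim H
  have hgal : IsGalois F (AdjoinRoot (X ^ p - C a : F[X])) :=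
    isGalois_of_isSplittingField_X_pow_sub_C hprim H _
  have hfr : Module.finrank F (AdjoinRoot (X ^ p - C a : F[X])) = p :=
    finrank_of_isSplittingField_X_pow_sub_C hprim H _
  have hfd : FiniteDimensional F (AdjoinRoot (X ^ p - C a : F[X])) :=
    Polynomial.IsSplittingField.finiteDimensional _ (X ^ p - C a : F[X])
  have hnf : NumberField (AdjoinRoot (X ^ p - C a : F[X])) := NumberField.of_module_finite F _
  exact ⟨AdjoinRoot (X ^ p - C a : F[X]), inferInstance, hnf, inferInstance, hgal, hsplit,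
    AdjoinRoot.root _, hfr, root_X_pow_sub_C_pow p a⟩

variable {F M : Type} [Field F] [Field M] [Algebra F M] {p : ℕ} [NeZero p] {a : F}
  [IsSplittingField F M (X ^ p - C a)]

/-- The Kummer character `κ : Gal(M/F) ≃ μ_p(F)` acts on every `γ = α y`, `α ^ p = a`. -/
theorem rk_kappa_apply (hprim : (primitiveRoots p F).Nonempty)
    (H : Irreducible (X ^ p - C a : F[X])) {α : M} (hα : α ^ p = algebraMap F M a)
    (σ : M ≃ₐ[F] M) (y : F) :
    σ (α * algebraMap F M y) = algebraMap F M (((autEquivRootsOfUnity hprim H M σ : Fˣ) : F)) *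
      (α * algebraMap F M y) := by
  have h := autEquivRootsOfUnity_smul hprim H M hα σ
  have h' : autEquivRootsOfUnity hprim H M σ • α =
      algebraMap F M (((autEquivRootsOfUnity hprim H M σ : Fˣ) : F)) * α := by
    rw [← Algebra.smul_def]
    rfl
  rw [map_mul, AlgEquiv.commutes, ← h, h', mul_assoc]

/-- An element of `Gal(M/F)` is determined by its Kummer character. -/
theorem rk_eq_of_kappa (hprim : (primitiveRoots p F).Nonempty)
    (H : Irreducible (X ^ p - C a : F[X])) (σ : M ≃ₐ[F] M) (ω : Fˣ) (hω : ω ^ p = 1)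
    (h : ((autEquivRootsOfUnity hprim H M σ : Fˣ)) = ω) :
    σ = (autEquivRootsOfUnity hprim H M).symm ⟨ω, (mem_rootsOfUnity p ω).mpr hω⟩ := by
  rw [MulEquiv.eq_symm_apply]
  exact Subtype.ext h

end kummer

end Fermat.Agent.F4Kum
end MergeWrap_F4_Kum_RecFrob

section MergeWrap_F4_Kum_RecArtin -- from F4/Kum/RecArtin.lean

/-!
# F4 / GLOB / KUM, work package RK: the Artin map of a Kummer extension, multiplicative form

For a family `s v ∈ Fˣ` of `p`-th roots of unity (the Kummer characters of the Frobenius elements)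
`famW T s J = ∏_{v ∉ T} s v ^ count_v J` is the Kummer character of the Artin symbol of the
fractional ideal `J`.  It is multiplicative on nonzero fractional ideals, takes the value `s v` at
the prime `v ∉ T`, and its value at the principal ideal `(b)` is the inverse of the pairing
`∏_{v ∉ T} s v ^ thetaOrd v b`.
-/

set_option autoImplicit false
set_option linter.unusedSectionVars false

open NumberField IsDedekindDomain FractionalIdeal
open scoped nonZeroDivisors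

namespace Fermat.Agent.F4Kum

open Fermat.Agent.S14SI Fermat.Agent.F4Rec

section famW

variable {F : Type*} [Field F] [NumberField F]

open Classical in
/-- `∏_{v ∉ T} s v ^ count_v J`. -/
noncomputable def famW (T : Finset (HeightOneSpectrum (𝓞 F)))
    (s : HeightOneSpectrum (𝓞 F) → Fˣ) (J : FractionalIdeal (𝓞 F)⁰ F) : Fˣ :=
  ∏ᶠ v : HeightOneSpectrum (𝓞 F), if v ∈ T then 1 else s v ^ (count F v J)

lemma finite_setOf_count_ne_zero (J : FractionalIdeal (𝓞 F)⁰ F) :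
    {v : HeightOneSpectrum (𝓞 F) | count F v J ≠ 0}.Finite := by
  have := FractionalIdeal.finite_factors (K := F) J
  rwa [Filter.eventually_cofinite] at this

open Classical in
lemma finite_mulSupport_famW (T : Finset (HeightOneSpectrum (𝓞 F)))
    (s : HeightOneSpectrum (𝓞 F) → Fˣ) (J : FractionalIdeal (𝓞 F)⁰ F) :
    (Function.mulSupport fun v : HeightOneSpectrum (𝓞 F) =>
      if v ∈ T then (1 : Fˣ) else s v ^ (count F v J)).Finite := by
  refine (finite_setOf_count_ne_zero J).subset ?_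
  intro v hv
  rw [Function.mem_mulSupport] at hv
  simp only [Set.mem_ofPred_eq]
  intro h0
  apply hv
  split_ifs
  · rfl
  · rw [h0, zpow_zero]

lemma famW_mul (T : Finset (HeightOneSpectrum (𝓞 F))) (s : HeightOneSpectrum (𝓞 F) → Fˣ)
    {I J : FractionalIdeal (𝓞 F)⁰ F} (hI : I ≠ 0) (hJ : J ≠ 0) :
    famW T s (I * J) = famW T s I * famW T s J := by
  classical
  unfold famW
  rw [← finprod_mul_distrib (finite_mulSupport_famW T s I) (finite_mulSupport_famW T s J)]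
  refine finprod_congr fun v => ?_
  split_ifs
  · rw [mul_one]
  · rw [count_mul F v hI hJ, zpow_add]

lemma famW_pow (T : Finset (HeightOneSpectrum (𝓞 F))) (s : HeightOneSpectrum (𝓞 F) → Fˣ)
    (J : FractionalIdeal (𝓞 F)⁰ F) (n : ℕ) :
    famW T s (J ^ n) = famW T s J ^ n := by
  classical
  unfold famW
  rw [finprod_pow (finite_mulSupport_famW T s J)]
  refine finprod_congr fun v => ?_
  split_ifs
  · rw [one_pow]
  · rw [count_pow, ← zpow_natCast, ← zpow_mul, mul_comm]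

/-- The values are `p`-th roots of unity. -/
lemma famW_pow_eq_one (T : Finset (HeightOneSpectrum (𝓞 F))) (s : HeightOneSpectrum (𝓞 F) → Fˣ)
    {p : ℕ} (hs : ∀ v, s v ^ p = 1) (J : FractionalIdeal (𝓞 F)⁰ F) :
    famW T s J ^ p = 1 := by
  classical
  unfold famW
  rw [finprod_pow (finite_mulSupport_famW T s J)]
  rw [finprod_eq_one_of_forall_eq_one]
  intro v
  split_ifs
  · rw [one_pow]
  · rw [← zpow_natCast, ← zpow_mul, mul_comm, zpow_mul, zpow_natCast, hs, one_zpow]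

/-- The value at a prime `v ∉ T`. -/
lemma famW_prime (T : Finset (HeightOneSpectrum (𝓞 F))) (s : HeightOneSpectrum (𝓞 F) → Fˣ)
    {v : HeightOneSpectrum (𝓞 F)} (hv : v ∉ T) :
    famW T s (v.asIdeal : FractionalIdeal (𝓞 F)⁰ F) = s v := by
  classical
  unfold famW
  rw [finprod_eq_single _ v]
  · rw [if_neg hv, count_self, zpow_one]
  · intro w hw
    split_ifs
    · rfl
    · rw [count_maximal_coprime F w (Ne.symm hw), zpow_zero]

open Classical in
/-- The value at a principal ideal. -/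
lemma famW_spanSingleton (T : Finset (HeightOneSpectrum (𝓞 F)))
    (s : HeightOneSpectrum (𝓞 F) → Fˣ) (b : Fˣ) :
    famW T s (spanSingleton (𝓞 F)⁰ (b : F)) =
      (∏ᶠ v : HeightOneSpectrum (𝓞 F), if v ∈ T then 1 else s v ^ thetaOrd v b)⁻¹ := by
  classical
  unfold famW
  rw [← finprod_inv_distrib]
  refine finprod_congr fun v => ?_
  split_ifs
  · rw [inv_one]
  · have h1 := valuation_eq_exp_neg_count (K := F) v b.ne_zero
    rw [thetaOrd_valuation] at h1
    have h2 : thetaOrd v b = -count F v (spanSingleton (𝓞 F)⁰ (b : F)) :=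
      WithZero.exp_injective h1
    rw [h2, zpow_neg, inv_inv]

end famW

/-! ### The family of symbols attached to `x` -/

section sym

variable {F : Type} [Field F] [NumberField F]

open Classical in
/-- The family of symbols: `s v = (x y ^ p / v)_p` for some `y` with `x y ^ p` a `v`-unit. -/
noncomputable def rkSym (p : ℕ) (x : Fˣ) (v : HeightOneSpectrum (𝓞 F)) : Fˣ :=
  if h : ∃ y : Fˣ, v.valuation F ((x : F) * (y : F) ^ p) = 1 then
    powSymb p v ((x : F) * (h.choose : F) ^ p) else 1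

lemma rkSym_pow (p : ℕ) (x : Fˣ) (v : HeightOneSpectrum (𝓞 F)) : rkSym p x v ^ p = 1 := by
  unfold rkSym
  split_ifs
  · exact powSymb_pow p v _
  · exact one_pow p

lemma rkSym_spec {p : ℕ} {x : Fˣ} {v : HeightOneSpectrum (𝓞 F)}
    (h : ∃ y : Fˣ, v.valuation F ((x : F) * (y : F) ^ p) = 1) :
    ∃ y : Fˣ, v.valuation F ((x : F) * (y : F) ^ p) = 1 ∧
      rkSym p x v = powSymb p v ((x : F) * (y : F) ^ p) := by
  refine ⟨h.choose, h.choose_spec, ?_⟩
  unfold rkSym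
  rw [dif_pos h]

lemma rkSym_eq_of_unit {p : ℕ} (hp : p.Prime) {ζ : F} (hζ : IsPrimitiveRoot ζ p) {x : Fˣ}
    {v : HeightOneSpectrum (𝓞 F)} (hv : (p : 𝓞 F) ∉ v.asIdeal) (hx : thetaOrd v x = 0) :
    rkSym p x v = powSymb p v (x : F) := by
  have hxv : v.valuation F (x : F) = 1 := (thetaOrd_eq_zero_iff v x).mp hx
  have h : ∃ y : Fˣ, v.valuation F ((x : F) * (y : F) ^ p) = 1 :=
    ⟨1, by rw [Units.val_one, one_pow, mul_one, hxv]⟩
  obtain ⟨y, hy, hs⟩ := rkSym_spec h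
  rw [hs]
  have hyv : v.valuation F (y : F) = 1 := by
    rw [map_mul, hxv, one_mul, map_pow] at hy
    exact (pow_eq_one_iff_left hp.ne_zero).mp hy
  exact rk_powSymb_mul_pow hp hζ v hv hxv hyv

/-- A set containing the primes above `p ≥ 2` is nonempty. -/
lemma rk_nonempty {p : ℕ} (hp : 2 ≤ p) {T : Finset (HeightOneSpectrum (𝓞 F))}
    (hT : ContainsPrimesAbove F p T) : T.Nonempty := by
  have hne : Ideal.span {(p : 𝓞 F)} ≠ ⊤ := by
    intro h
    have h1 : Ideal.absNorm (Ideal.span {(p : 𝓞 F)}) = 1 := by rw [h, Ideal.absNorm_top]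
    rw [Ideal.absNorm_span_natCast] at h1
    have hpos : 0 < Module.finrank ℤ (𝓞 F) := Module.finrank_pos
    have : p = 1 := by
      rcases Nat.pow_eq_one.mp h1 with h | h
      · exact h
      · omega
    omega
  obtain ⟨P, hPmax, hP⟩ := Ideal.exists_le_maximal _ hne
  have hP0 : P ≠ ⊥ := by
    intro h0
    have h1 : (p : 𝓞 F) ∈ P := hP (Ideal.mem_span_singleton_self _)
    rw [h0, Ideal.mem_bot] at h1
    have : (p : 𝓞 F) ≠ 0 := by
      have : p ≠ 0 := by omega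
      exact_mod_cast this
    exact this h1
  exact ⟨⟨P, hPmax.isPrime, hP0⟩, hT _ (hP (Ideal.mem_span_singleton_self _))⟩

/-- The modulus is contained in every prime of `T`. -/
lemma rk_modT_le {T : Finset (HeightOneSpectrum (𝓞 F))} {k : ℕ} (hk : 1 ≤ k)
    {v : HeightOneSpectrum (𝓞 F)} (hv : v ∈ T) : modT T k ≤ v.asIdeal := by
  unfold modT
  exact (Ideal.le_of_dvd (Finset.dvd_prod_of_mem _ hv)).trans (Ideal.pow_le_self (by omega))

/-- An ideal prime to the modulus is not contained in a prime of `T`. -/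
lemma rk_not_le_of_sup_eq_top {T : Finset (HeightOneSpectrum (𝓞 F))} {k : ℕ} (hk : 1 ≤ k)
    {I : Ideal (𝓞 F)} (hI : I ⊔ modT T k = ⊤) {v : HeightOneSpectrum (𝓞 F)} (hv : v ∈ T) :
    ¬ I ≤ v.asIdeal := by
  intro hle
  have h1 : (⊤ : Ideal (𝓞 F)) ≤ v.asIdeal := hI ▸ sup_le hle (rk_modT_le hk hv)
  exact v.isPrime.ne_top (top_le_iff.mp h1)

end sym

/-! ### The Artin map of the Kummer extension `M = F(x^{1/p})` -/

section kummerArtin

open Polynomial

variable {F M : Type} [Field F] [NumberField F] [Field M] [NumberField M] [Algebra F M]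
  [IsGalois F M] {p : ℕ} [NeZero p] {x : Fˣ} [IsSplittingField F M (X ^ p - C (x : F))]

/-- `F(x^{1/p})/F` is unramified outside `T ⊇ {v ∣ p}` if `p ∣ ord_v x` for `v ∉ T`. -/
theorem rk_unramOutside (hp : p.Prime) {ζ : F} (hζ : IsPrimitiveRoot ζ p)
    (hprim : (primitiveRoots p F).Nonempty) (H : Irreducible (X ^ p - C (x : F) : F[X]))
    {α : M} (hα : α ^ p = algebraMap F M (x : F))
    {T : Finset (HeightOneSpectrum (𝓞 F))} (hT : ContainsPrimesAbove F p T)
    (hx : ∀ v ∉ T, (p : ℤ) ∣ thetaOrd v x) : UnramOutside F M T := by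
  intro Q hQ hQ0 hQT σ hσ
  have hu0 : Q.under (𝓞 F) ≠ ⊥ := Ideal.under_ne_bot (𝓞 F) hQ0
  set v : HeightOneSpectrum (𝓞 F) := ⟨Q.under (𝓞 F), inferInstance, hu0⟩ with hvdef
  have hvT : v ∉ T := fun h => hQT v h rfl
  have hpv : (p : 𝓞 F) ∉ v.asIdeal := fun h => hvT (hT v h)
  obtain ⟨y, hy⟩ := rk_exists_unit_mul_pow v x (hx v hvT)
  have hγ : (α * algebraMap F M (y : F)) ^ p = algebraMap F M ((x : F) * (y : F) ^ p) := by
    rw [mul_pow, hα, map_mul, map_pow]
  have hσγ := rk_kappa_apply hprim H hα σ (y : F)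
  have hω : (autEquivRootsOfUnity hprim H M σ : Fˣ) ^ p = 1 :=
    (mem_rootsOfUnity p _).mp (autEquivRootsOfUnity hprim H M σ).2
  have h1 := rk_one_of_inertia hp hζ v hpv Q hQ rfl σ hσ hy _ hγ _ hω hσγ
  have h2 : autEquivRootsOfUnity hprim H M σ = 1 := Subtype.ext h1
  exact (MulEquiv.map_eq_one_iff _).mp h2

variable (M) in
/-- The Artin map of the Kummer extension: the automorphism with Kummer character
`∏_{v ∉ T} s v ^ count_v I`. -/
noncomputable def rkArtin (hprim : (primitiveRoots p F).Nonempty)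
    (H : Irreducible (X ^ p - C (x : F) : F[X])) (T : Finset (HeightOneSpectrum (𝓞 F)))
    (I : Ideal (𝓞 F)) : M ≃ₐ[F] M :=
  (autEquivRootsOfUnity hprim H M).symm
    ⟨famW T (rkSym p x) (I : FractionalIdeal (𝓞 F)⁰ F),
      (mem_rootsOfUnity p _).mpr (famW_pow_eq_one T _ (rkSym_pow p x) _)⟩

theorem rkArtin_mul (hprim : (primitiveRoots p F).Nonempty)
    (H : Irreducible (X ^ p - C (x : F) : F[X])) (T : Finset (HeightOneSpectrum (𝓞 F)))
    {I J : Ideal (𝓞 F)} (hI : I ≠ ⊥) (hJ : J ≠ ⊥) :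
    rkArtin M hprim H T (I * J) = rkArtin M hprim H T I * rkArtin M hprim H T J := by
  unfold rkArtin
  rw [← map_mul]
  congr 1
  apply Subtype.ext
  show famW T (rkSym p x) ((I * J : Ideal (𝓞 F)) : FractionalIdeal (𝓞 F)⁰ F) =
    famW T (rkSym p x) (I : FractionalIdeal (𝓞 F)⁰ F) *
      famW T (rkSym p x) (J : FractionalIdeal (𝓞 F)⁰ F)
  rw [coeIdeal_mul, famW_mul T _ (coeIdeal_ne_zero.mpr hI) (coeIdeal_ne_zero.mpr hJ)]

theorem rkArtin_eq_one (hprim : (primitiveRoots p F).Nonempty)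
    (H : Irreducible (X ^ p - C (x : F) : F[X])) (T : Finset (HeightOneSpectrum (𝓞 F)))
    {I : Ideal (𝓞 F)} (h : rkArtin M hprim H T I = 1) :
    famW T (rkSym p x) (I : FractionalIdeal (𝓞 F)⁰ F) = 1 := by
  unfold rkArtin at h
  rw [MulEquiv.map_eq_one_iff] at h
  exact congrArg Subtype.val h

theorem rkArtin_frob (hp : p.Prime) {ζ : F} (hζ : IsPrimitiveRoot ζ p)
    (hprim : (primitiveRoots p F).Nonempty) (H : Irreducible (X ^ p - C (x : F) : F[X]))
    {α : M} (hα : α ^ p = algebraMap F M (x : F))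
    {T : Finset (HeightOneSpectrum (𝓞 F))} (hT : ContainsPrimesAbove F p T)
    (hx : ∀ v ∉ T, (p : ℤ) ∣ thetaOrd v x) {k : ℕ} (hk : 1 ≤ k)
    (Q : Ideal (𝓞 M)) (hQ : Q.IsPrime) (hQ0 : Q ≠ ⊥) (hQT : Q.under (𝓞 F) ⊔ modT T k = ⊤) :
    IsFrobRel (rkArtin M hprim H T (Q.under (𝓞 F))) Q (Ideal.absNorm (Q.under (𝓞 F))) := by
  have hu0 : Q.under (𝓞 F) ≠ ⊥ := Ideal.under_ne_bot (𝓞 F) hQ0
  set v : HeightOneSpectrum (𝓞 F) := ⟨Q.under (𝓞 F), inferInstance, hu0⟩ with hvdef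
  have hvT : v ∉ T := fun h => rk_not_le_of_sup_eq_top hk hQT h le_rfl
  have hpv : (p : 𝓞 F) ∉ v.asIdeal := fun h => hvT (hT v h)
  obtain ⟨y, hy, hs⟩ := rkSym_spec (rk_exists_unit_mul_pow v x (hx v hvT))
  obtain ⟨τ, hτ⟩ := rk_exists_frob (F := F) Q hQ hQ0
  have hγ : (α * algebraMap F M (y : F)) ^ p = algebraMap F M ((x : F) * (y : F) ^ p) := by
    rw [mul_pow, hα, map_mul, map_pow]
  have hτγ := rk_kappa_apply hprim H hα τ (y : F)
  have hω : (autEquivRootsOfUnity hprim H M τ : Fˣ) ^ p = 1 :=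
    (mem_rootsOfUnity p _).mp (autEquivRootsOfUnity hprim H M τ).2
  have h1 := rk_symb_of_frob hp hζ v hpv Q hQ rfl τ hτ hy _ hγ _ hω hτγ
  rw [← hs] at h1
  have h2 : τ = rkArtin M hprim H T (Q.under (𝓞 F)) := by
    unfold rkArtin
    rw [MulEquiv.eq_symm_apply]
    apply Subtype.ext
    show (autEquivRootsOfUnity hprim H M τ : Fˣ) =
      famW T (rkSym p x) (v.asIdeal : FractionalIdeal (𝓞 F)⁰ F)
    rw [famW_prime T _ hvT, h1]
  rw [← h2]
  exact hτ

end kummerArtin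

end Fermat.Agent.F4Kum
end MergeWrap_F4_Kum_RecArtin

section MergeWrap_F4_Kum_Rec1 -- from F4/Kum/Rec1.lean

/-!
# F4 / GLOB / KUM, work package RK: `Rec1` from Artin reciprocity in ray form

`rec1_of : F4Rec.ArtinRay → HenselRefine → RayApprox → Rec1`.

Let `T ⊇ {v ∣ p}`, `x` of order divisible by `p` outside `T`, `a` a local `p`-th power on `T`.
If `x` is a `p`-th power all symbols are trivial.  Otherwise `M = F(x^{1/p})` is cyclic of degree
`p`, unramified outside `T`, and `I ↦ rkArtin I` (Kummer character `∏_{v ∉ T} s v ^ count_v I`) is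
an Artin map; `ArtinRay` gives `k` such that it kills `(n)`, `n ≡ 1 mod ∏_{v ∈ T} v ^ k`.  By
`HenselRefine` and `RayApprox`, `a z ^ p = n / d` with `n, d ≡ 1`, hence the Kummer character of
the Artin symbol of `(a)` is trivial, which is the claim.
-/

set_option autoImplicit false

open NumberField IsDedekindDomain FractionalIdeal Polynomial
open scoped nonZeroDivisors

namespace Fermat.Agent.F4Kum

open Fermat.Agent.S14SI Fermat.Agent.F4Rec

/-- If `x` is a `p`-th power, the symbols `rkSym p x v` are trivial outside `p`. -/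
lemma rkSym_eq_one_of_pow {F : Type} [Field F] [NumberField F] {p : ℕ} (hp : p.Prime) {ζ : F}
    (hζ : IsPrimitiveRoot ζ p) {x : Fˣ} {b : F} (hb : b ^ p = (x : F))
    {v : HeightOneSpectrum (𝓞 F)} (hv : (p : 𝓞 F) ∉ v.asIdeal) : rkSym p x v = 1 := by
  by_cases h : ∃ y : Fˣ, v.valuation F ((x : F) * (y : F) ^ p) = 1
  · obtain ⟨y, hy, hs⟩ := rkSym_spec h
    rw [hs, ← hb, ← mul_pow]
    have hby : v.valuation F (b * (y : F)) = 1 := by
      rw [← hb, ← mul_pow, map_pow] at hy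
      exact (pow_eq_one_iff_left hp.ne_zero).mp hy
    rw [powSymb_pow_nat v hp hζ hv hby, powSymb_pow]
  · unfold rkSym
    rw [dif_neg h]

/-- **Reciprocity in `famW` form** (no unit condition on `x`): if `p ∣ ord_v x` outside
`T ⊇ {v ∣ p}` and `a` is a local `p`-th power on `T`, the Kummer character of the Artin symbol of
`(a)` in `F(x^{1/p})/F` is trivial: `∏_{v ∉ T} s_v ^ count_v (a) = 1`. -/
def Rec1W : Prop :=
  ∀ (p : ℕ) (F : Type) [Field F] [NumberField F] (ζ : F)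
    (T : Finset (HeightOneSpectrum (𝓞 F))) (x a : Fˣ),
    p.Prime → p ≠ 2 → IsPrimitiveRoot ζ p → ContainsPrimesAbove F p T →
    (∀ v ∉ T, (p : ℤ) ∣ thetaOrd v x) →
    (∀ v ∈ T, IsLocalPow F v p ζ (a : F)) →
    famW T (rkSym p x) (spanSingleton (𝓞 F)⁰ (a : F)) = 1

/-- **WP RK, `famW` form**. -/
theorem rec1W_of (hA : ArtinRay) (hH : HenselRefine) (hR : RayApprox) : Rec1W := by
  intro p F _ _ ζ T x a hp hp2 hζ hT hx ha
  classical
  have hNZ : NeZero p := ⟨hp.ne_zero⟩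
  by_cases hpow : ∃ b : F, b ^ p = (x : F)
  · -- `x` is a `p`-th power
    obtain ⟨b, hb⟩ := hpow
    unfold famW
    rw [finprod_eq_one_of_forall_eq_one]
    intro v
    split_ifs with hv
    · rfl
    · rw [rkSym_eq_one_of_pow hp hζ hb (fun h => hv (hT v h)), one_zpow]
  · push Not at hpow
    obtain ⟨M, _, _, _, _, _, α, hfin, hα⟩ := rk_exists_kummer hp hζ hpow
    have hprim : (primitiveRoots p F).Nonempty := ⟨ζ, (mem_primitiveRoots hp.pos).mpr hζ⟩
    have H : Irreducible (X ^ p - C (x : F) : F[X]) :=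
      X_pow_sub_C_irreducible_of_prime hp hpow
    have hT0 : T.Nonempty := rk_nonempty hp.two_le hT
    have hU : UnramOutside F M T := rk_unramOutside hp hζ hprim H hα hT hx
    obtain ⟨k, hk, hArt⟩ := hA p F M T hp hp2 hfin hT0 hU
    have hne : ∀ I : Ideal (𝓞 F), I ⊔ modT T k = ⊤ → I ≠ ⊥ := by
      intro I hI h0
      obtain ⟨v, hv⟩ := hT0
      exact rk_not_le_of_sup_eq_top hk hI hv (h0 ▸ bot_le)
    have hkey := hArt (rkArtin M hprim H T)
      (fun I J hI hJ => rkArtin_mul hprim H T (hne I hI) (hne J hJ))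
      (fun Q hQ hQ0 hQT => rkArtin_frob hp hζ hprim H hα hT hx hk Q hQ hQ0 hQT)
    -- approximation
    have h1 : ∀ v ∈ T, ∃ y : F, y ≠ 0 ∧
        v.valuation F ((a : F) * y ^ p - 1) < WithZero.exp (-(k : ℤ)) :=
      fun v hv => hH p F ζ a v k hp hζ (ha v hv)
    obtain ⟨z, n, d, hn, hd, hn1, hd1, hnd⟩ := hR F T k p a hT0 h1
    have hWn := rkArtin_eq_one hprim H T (hkey n hn hn1)
    have hWd := rkArtin_eq_one hprim H T (hkey d hd hd1)
    rw [coeIdeal_span_singleton] at hWn hWd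
    have hdF : algebraMap (𝓞 F) F d ≠ 0 := by
      intro h0
      apply hd
      exact (FaithfulSMul.algebraMap_injective (𝓞 F) F) (by rw [h0, map_zero])
    have hnd' : (a : F) * (z : F) ^ p = algebraMap (𝓞 F) F n / algebraMap (𝓞 F) F d := hnd
    have e : spanSingleton (𝓞 F)⁰ (a : F) * spanSingleton (𝓞 F)⁰ (z : F) ^ p *
        spanSingleton (𝓞 F)⁰ (algebraMap (𝓞 F) F d) =
        spanSingleton (𝓞 F)⁰ (algebraMap (𝓞 F) F n) := by
      rw [spanSingleton_pow, spanSingleton_mul_spanSingleton, spanSingleton_mul_spanSingleton,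
        hnd', div_mul_cancel₀ _ hdF]
    have ha0 : spanSingleton (𝓞 F)⁰ (a : F) ≠ 0 := spanSingleton_ne_zero_iff.mpr a.ne_zero
    have hz0 : spanSingleton (𝓞 F)⁰ (z : F) ^ p ≠ 0 :=
      pow_ne_zero _ (spanSingleton_ne_zero_iff.mpr z.ne_zero)
    have hd0 : spanSingleton (𝓞 F)⁰ (algebraMap (𝓞 F) F d) ≠ 0 :=
      spanSingleton_ne_zero_iff.mpr hdF
    have h2 := congrArg (famW T (rkSym p x)) e
    rw [famW_mul T _ (mul_ne_zero ha0 hz0) hd0, famW_mul T _ ha0 hz0, famW_pow,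
      famW_pow_eq_one T _ (rkSym_pow p x), hWd, hWn, mul_one, mul_one] at h2
    exact h2

/-- **WP RK**: the reciprocity law `Rec1` for the power residue symbol follows from Artin
reciprocity in ray form. -/
theorem rec1_of (hA : ArtinRay) (hH : HenselRefine) (hR : RayApprox) : Rec1 := by
  intro p F _ _ ζ T x a hp hp2 hζ hT hx hxa ha
  classical
  -- reduction to the family `rkSym`
  have hfac : ∀ v : HeightOneSpectrum (𝓞 F), v ∉ T →
      powSymb p v (x : F) ^ thetaOrd v a = rkSym p x v ^ thetaOrd v a := by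
    intro v hv
    have hpv : (p : 𝓞 F) ∉ v.asIdeal := fun h => hv (hT v h)
    by_cases hd : (p : ℤ) ∣ thetaOrd v a
    · obtain ⟨m, hm⟩ := hd
      rw [hm, zpow_mul, zpow_mul, zpow_natCast, zpow_natCast, powSymb_pow, rkSym_pow]
    · rw [rkSym_eq_of_unit hp hζ hpv (hxa v hv hd)]
  have hred : kumPairing p T (x : F) a =
      (famW T (rkSym p x) (spanSingleton (𝓞 F)⁰ (a : F)))⁻¹ := by
    rw [famW_spanSingleton, inv_inv]
    unfold kumPairing
    refine finprod_congr fun v => ?_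
    split_ifs with hv
    · rfl
    · exact hfac v hv
  rw [hred, inv_eq_one]
  exact rec1W_of hA hH hR p F ζ T x a hp hp2 hζ hT hx ha

end Fermat.Agent.F4Kum
end MergeWrap_F4_Kum_Rec1
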