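import Fermat.Agent.MU.F4.Kum.Defs
import Fermat.Agent.MU.F4.Recip.Statements

section MergeWrap_F4_Kum_RecInterface -- from F4/Kum/RecInterface.lean

/-!
# F4 / GLOB / KUM, work package RK: `Rec1 ⟸ F4Rec.ArtinRay` — interfaces of the elementary pieces

Owner of RK: helper95.  Assembly (`F4/Kum/Rec1.lean`):
`rec1_of : F4Rec.ArtinRay → HenselRefine → RayApprox → Rec1`.

* `HenselRefine` (RK1): a local `p`-th power at finite (Hensel) level is a `p`-th power to every
  precision (finite-level Newton iteration; no completions).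
* `RayApprox` (RK2): an element which is, at every `v ∈ T`, a `p`-th power to precision `k` is,
  up to a global `p`-th power, a quotient `n / d` of integers `n, d ≡ 1 mod ∏_{v ∈ T} v ^ k`.
-/

set_option autoImplicit false

open NumberField IsDedekindDomain

namespace Fermat.Agent.F4Kum

open Fermat.Agent.S14SI

/-- **RK1 (Hensel refinement at finite level)**: if `v (a * y ^ p - 1) < v (ζ - 1) ^ p` for some
`y ≠ 0`, then for every `k` there is `y ≠ 0` with `v (a * y ^ p - 1) < exp (-k)`.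
Newton step: if `u = 1 + t` with `v t < v (ζ - 1) ^ p` put `z = 1 - t / p`; then
`u * z ^ p = 1 + t'` with `v t' < v t` (use `v p = v (ζ - 1) ^ (p - 1)` and `p ∣ C(p, i)`). -/
def HenselRefine : Prop :=
  ∀ (p : ℕ) (F : Type) [Field F] [NumberField F] (ζ a : F) (v : HeightOneSpectrum (𝓞 F))
    (k : ℕ), p.Prime → IsPrimitiveRoot ζ p → IsLocalPow F v p ζ a →
    ∃ y : F, y ≠ 0 ∧ v.valuation F (a * y ^ p - 1) < WithZero.exp (-(k : ℤ))

/-- **RK2 (approximation)**: if `a` is at every `v ∈ T` a `p`-th power to precision `k`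
(`v (a * y_v ^ p - 1) < exp (-k)`), there are `z ∈ Fˣ` and nonzero integers `n, d` with
`n - 1, d - 1 ∈ ∏_{v ∈ T} v ^ k` and `a * z ^ p = n / d`.
(Weak approximation `F4G.exists_approx` gives `z` with `b = a * z ^ p ∈ U_v^{(k+1)}` for all
`v ∈ T`; the denominator ideal of `b` is prime to `T`, so it contains `d ≡ 1 mod ∏ v ^ k`;
`n = d * b`.) -/
def RayApprox : Prop :=
  ∀ (F : Type) [Field F] [NumberField F] (T : Finset (HeightOneSpectrum (𝓞 F))) (k p : ℕ)
    (a : Fˣ), T.Nonempty →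
    (∀ v ∈ T, ∃ y : F, y ≠ 0 ∧
      v.valuation F ((a : F) * y ^ p - 1) < WithZero.exp (-(k : ℤ))) →
    ∃ (z : Fˣ) (n d : 𝓞 F), n ≠ 0 ∧ d ≠ 0 ∧ n - 1 ∈ Fermat.Agent.F4Rec.modT T k ∧
      d - 1 ∈ Fermat.Agent.F4Rec.modT T k ∧ (a : F) * (z : F) ^ p = (n : F) / (d : F)

end Fermat.Agent.F4Kum
end MergeWrap_F4_Kum_RecInterface
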